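import Fermat.Agent.TOR.T1.Defs
import Fermat.Agent.TOR.KL2.Basic

/-!
# TOR / T1 : package T1-ON2 : glueing two orthonormal families with the separating element `θ`
-/

set_option autoImplicit false

open Polynomial ModularCurve AlgebraicCurve

noncomputable section

namespace Fermat.Agent.TOR.T1

open Fermat.Agent.GAL.KL Fermat.Agent.GAL.KLC Fermat.Agent.TOR.KL2
open Fermat.Agent.GAL

variable {K F₀ F k Γ' Γ₀ : Type*} [Field K] [Field F₀] [Field F] [Algebra K F₀]
  [Algebra K F] [Field k] [LinearOrderedCommGroupWithZero Γ'] [LinearOrderedCommGroupWithZero Γ₀]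
  {v₀ : Valuation F₀ Γ'} {ρ₀ : v₀.integer →+* LaurentSeries k} {v : Valuation F Γ₀}
  {ρ : v.integer →+* LaurentSeries k} {α β : F₀ →ₐ[K] F} {w : F ≃ₐ[K] F} {q : ℕ} [NeZero q]
  {x x' : F₀} {ξ ξ' : LaurentSeries k} {m : ℕ}

/-- the combination over `Fin.append` splits. -/
theorem On2_comb_append {t : F} {d d' : ℕ} (a : Fin d → F) (b : Fin d' → F) (θ θ' : F)
    (p : Fin (d + d') → K[X]) :
    comb K t p (Fin.append (fun i => θ * a i) (fun i => θ' * b i)) =
      θ * comb K t (fun i => p (Fin.castAdd d' i)) a +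
        θ' * comb K t (fun i => p (Fin.natAdd d i)) b := by
  unfold comb
  rw [Fin.sum_univ_add, Finset.mul_sum, Finset.mul_sum]
  congr 1
  · refine Finset.sum_congr rfl fun i _ => ?_
    rw [Fin.append_left]
    ring
  · refine Finset.sum_congr rfl fun i _ => ?_
    rw [Fin.append_right]
    ring

/-- crude bound for a combination of integral elements. -/
theorem On2_comb_le {u : Valuation F Γ₀} {t : F} {d : ℕ} (a : Fin d → F) (ha : ∀ i, u (a i) ≤ 1)
    (p : Fin d → K[X]) {γ : Γ₀} (hp : ∀ i, u (aeval t (p i)) ≤ γ) : u (comb K t p a) ≤ γ := by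
  unfold comb
  refine Valuation.map_sum_le u fun i _ => ?_
  rw [map_mul]
  exact (mul_le_mul' (hp i) (ha i)).trans (by rw [mul_one])

theorem on2_append {v₁ v₂ : Valuation F Γ₀} {t : F} (S : Setup K v₁ v₂ t) {d d' : ℕ}
    (a : Fin d → F) (b : Fin d' → F) (ha : ON K v₁ t a) (hb : ON K v₂ t b)
    (ha2 : ∀ i, v₂ (a i) ≤ 1) (hb1 : ∀ i, v₁ (b i) ≤ 1) {θ : F} (h1 : v₁ (θ - 1) < 1)
    (h2 : v₂ θ < 1) :
    ON2 K v₁ v₂ t (Fin.append (fun i => θ * a i) (fun i => (1 - θ) * b i)) := by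
  intro p γ
  rw [On2_comb_append]
  set p1 : Fin d → K[X] := fun i => p (Fin.castAdd d' i) with hp1
  set p2 : Fin d' → K[X] := fun i => p (Fin.natAdd d i) with hp2
  set S1 : F := comb K t p1 a with hS1
  set S2 : F := comb K t p2 b with hS2
  have hθ1 : v₁ θ = 1 := by
    have := Valuation.map_one_add_of_lt (v := v₁) h1
    rwa [add_sub_cancel] at this
  have hθ1' : v₁ (1 - θ) < 1 := by rwa [Valuation.map_sub_swap]
  have hθ2' : v₂ (1 - θ) = 1 := Valuation.map_one_sub_of_lt v₂ h2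
  constructor
  · intro h
    rw [NN_le_iff] at h
    obtain ⟨hv1, hv2⟩ := h
    -- `v₂ S1 ≤ v₁ S1` and `v₁ S2 ≤ v₂ S2`
    have hA : v₂ S1 ≤ v₁ S1 := On2_comb_le a ha2 p1 fun i => by
      rw [← S.eq_aeval]
      exact (ha p1 _).1 le_rfl i
    have hB : v₁ S2 ≤ v₂ S2 := On2_comb_le b hb1 p2 fun i => by
      rw [S.eq_aeval]
      exact (hb p2 _).1 le_rfl i
    have hAB : v₁ S1 ≤ γ ∧ v₂ S2 ≤ γ := by
      rcases le_or_gt (v₂ S2) (v₁ S1) with hle | hlt
      · rcases eq_or_ne (v₁ S1) 0 with h0 | h0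
        · rw [h0] at hle ⊢
          exact ⟨zero_le, hle.trans zero_le⟩
        · have hlt : v₁ ((1 - θ) * S2) < v₁ (θ * S1) := by
            rw [map_mul, map_mul, hθ1, one_mul]
            calc v₁ (1 - θ) * v₁ S2 ≤ v₁ (1 - θ) * v₁ S1 := mul_le_mul' le_rfl (hB.trans hle)
              _ < 1 * v₁ S1 := mul_lt_mul_of_pos_right hθ1' (zero_lt_iff.2 h0)
              _ = v₁ S1 := one_mul _
          have heq := Valuation.map_add_eq_of_lt_left v₁ hlt
          rw [map_mul v₁ θ, hθ1, one_mul] at heq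
          rw [heq] at hv1
          exact ⟨hv1, hle.trans hv1⟩
      · have hlt' : v₂ (θ * S1) < v₂ ((1 - θ) * S2) := by
          rw [map_mul, map_mul, hθ2', one_mul]
          calc v₂ θ * v₂ S1 ≤ 1 * v₁ S1 := mul_le_mul' h2.le hA
            _ = v₁ S1 := one_mul _
            _ < v₂ S2 := hlt
        have heq := Valuation.map_add_eq_of_lt_right v₂ hlt'
        rw [map_mul v₂ (1 - θ), hθ2', one_mul] at heq
        rw [heq] at hv2
        exact ⟨hlt.le.trans hv2, hv2⟩
    have c1 := (ha p1 γ).1 hAB.1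
    have c2 := (hb p2 γ).1 hAB.2
    intro i
    induction i using Fin.addCases with
    | left i => exact c1 i
    | right i =>
      rw [S.eq_aeval]
      exact c2 i
  · intro h
    have c1 : ∀ i, v₁ (aeval t (p1 i)) ≤ γ := fun i => h _
    have c2 : ∀ i, v₁ (aeval t (p2 i)) ≤ γ := fun i => h _
    have c1' : ∀ i, v₂ (aeval t (p1 i)) ≤ γ := fun i => by rw [← S.eq_aeval]; exact c1 i
    have c2' : ∀ i, v₂ (aeval t (p2 i)) ≤ γ := fun i => by rw [← S.eq_aeval]; exact c2 i
    have e1 : v₁ S1 ≤ γ := (ha p1 γ).2 c1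
    have e2 : v₂ S2 ≤ γ := (hb p2 γ).2 c2'
    have e3 : v₂ S1 ≤ γ := On2_comb_le a ha2 p1 c1'
    have e4 : v₁ S2 ≤ γ := On2_comb_le b hb1 p2 c2
    rw [NN_le_iff]
    constructor
    · refine Valuation.map_add_le v₁ ?_ ?_
      · rw [map_mul, hθ1, one_mul]; exact e1
      · rw [map_mul]
        exact (mul_le_mul' hθ1'.le e4).trans (by rw [one_mul])
    · refine Valuation.map_add_le v₂ ?_ ?_
      · rw [map_mul]
        exact (mul_le_mul' h2.le e3).trans (by rw [one_mul])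
      · rw [map_mul, hθ2', one_mul]; exact e2

end Fermat.Agent.TOR.T1
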