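import Fermat.Agent.TOR.T1.Defs
import Fermat.Agent.GAL.KLC.GaussON

/-!
# TOR / T1 : package T1-ON1 : orthonormality from distinct `Q`-orders modulo `ord t` (generalises `KLC.on_of_isRed`)
-/

set_option autoImplicit false

open Polynomial ModularCurve AlgebraicCurve

noncomputable section

namespace Fermat.Agent.TOR.T1

open Fermat.Agent.GAL.KL Fermat.Agent.GAL.KLC Fermat.Agent.TOR.KL2
open Fermat.Agent.GAL

variable {K F₀ F k Γ' Γ₀ : Type*} [Field K] [Field F₀] [Field F] [Algebra K F₀]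
  [Algebra K F] [Field k] [LinearOrderedCommGroupWithZero Γ'] [LinearOrderedCommGroupWithZero Γ₀]
  {v₀ : Valuation F₀ Γ'} {ρ₀ : v₀.integer →+* LaurentSeries k} {v : Valuation F Γ₀}
  {ρ : v.integer →+* LaurentSeries k} {α β : F₀ →ₐ[K] F} {w : F ≃ₐ[K] F} {q : ℕ} [NeZero q]
  {x x' : F₀} {ξ ξ' : LaurentSeries k} {m : ℕ}

theorem on_of_orders (hρ : IsRed K v ρ) {t : F} {τ : LaurentSeries k} (ht : Rd ρ t τ) {D : ℕ}
    (hD : 0 < D) (hτ : τ.order = -(D : ℤ)) {d : ℕ} (e : Fin d → F) (ε : Fin d → LaurentSeries k)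
    (he : ∀ i, Rd ρ (e i) (ε i)) (hε : ∀ i, ε i ≠ 0)
    (hdist : ∀ i j, (D : ℤ) ∣ (ε i).order - (ε j).order → i = j) : ON K v t e := by
  obtain ⟨htm, htτ⟩ := ht
  have hxo0 : (ρ ⟨t, htm⟩).order < 0 := by rw [htτ, hτ]; omega
  have hG : Gauss K v t := gauss_of_isRed hρ htm hxo0
  intro p γ
  constructor
  · intro h i₁
    obtain ⟨i₀, -, hmax⟩ := Finset.exists_max_image (Finset.univ : Finset (Fin d))
      (fun i => v (aeval t (p i))) ⟨i₁, Finset.mem_univ _⟩
    have hmax' : ∀ i, v (aeval t (p i)) ≤ v (aeval t (p i₀)) := fun i => hmax i (Finset.mem_univ _)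
    obtain ⟨a, ha⟩ := hG.exists_const (p i₀)
    by_cases hva : v (algebraMap K F a) = 0
    · have := hmax' i₁
      rw [ha, hva] at this
      exact this.trans zero_le
    have ha0 : a ≠ 0 := by
      rintro rfl
      apply hva
      rw [map_zero, map_zero]
    set p' : Fin d → K[X] := fun i => C a⁻¹ * p i with hp'
    have hp'v : ∀ i, v (aeval t (p' i)) = (v (algebraMap K F a))⁻¹ * v (aeval t (p i)) := by
      intro i
      rw [hp']
      simp only
      rw [map_mul, aeval_C, map_mul, map_inv₀, map_inv₀]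
    have hp'1 : ∀ i, v (aeval t (p' i)) ≤ 1 := by
      intro i
      rw [hp'v, inv_mul_le_iff₀ (zero_lt_iff.mpr hva), mul_one, ← ha]
      exact hmax' i
    have hp'c : ∀ i j, v (algebraMap K F ((p' i).coeff j)) ≤ 1 := fun i => (hG (p' i) 1).mp (hp'1 i)
    choose pb hmem hred _ _ using fun i => exists_red_poly hρ htm (p' i) (hp'c i)
    have hpb0 : pb i₀ ≠ 0 := by
      intro h0
      have h1 := hred i₀
      rw [h0, map_zero, hρ.ker] at h1
      change v (aeval t (p' i₀)) < 1 at h1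
      rw [hp'v, ha, inv_mul_cancel₀ hva] at h1
      exact lt_irrefl _ h1
    rw [htτ] at hxo0
    simp only [htτ] at hred
    have hterm : ∀ i : Fin d, aeval τ (pb i) * ε i ≠ 0 → pb i ≠ 0 := by
      intro i h h0
      rw [h0, map_zero, zero_mul] at h
      exact h rfl
    have hord : ∀ i : Fin d, pb i ≠ 0 → (aeval τ (pb i) * ε i).order =
        -(D : ℤ) * (pb i).natDegree + (ε i).order := by
      intro i hi
      rw [HahnSeries.order_mul (order_aeval hxo0 _ hi).1 (hε i), (order_aeval hxo0 _ hi).2, hτ]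
      ring
    obtain ⟨-, -, -, -, hs0, -⟩ := GaussON_sum_ne_zero (Finset.univ : Finset (Fin d))
      (fun i => aeval τ (pb i) * ε i)
      (by
        intro i _ j _ hi hj hij
        rw [hord i (hterm i hi), hord j (hterm j hj)] at hij
        apply hdist
        exact ⟨((pb i).natDegree : ℤ) - (pb j).natDegree, by linarith⟩)
      ⟨i₀, Finset.mem_univ _, mul_ne_zero (order_aeval hxo0 _ hpb0).1 (hε i₀)⟩
    -- the scaled combination
    have hz : Rd ρ (∑ i : Fin d, aeval t (p' i) * e i) (∑ i : Fin d, aeval τ (pb i) * ε i) :=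
      Rd.sum _ fun i _ => Rd.mul ⟨hmem i, hred i⟩ (he i)
    have hzc : (∑ i : Fin d, aeval t (p' i) * e i) = (algebraMap K F a)⁻¹ * comb K t p e := by
      rw [comb, Finset.mul_sum]
      apply Finset.sum_congr rfl
      intro i _
      rw [hp']
      simp only
      rw [map_mul, aeval_C, map_inv₀, mul_assoc]
    have h1 := (hz.v_eq_one hρ hs0).ge
    rw [hzc, map_mul, map_inv₀, le_inv_mul_iff₀ (zero_lt_iff.mpr hva), mul_one] at h1
    exact (((hmax' i₁).trans ha.le).trans h1).trans h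
  · intro h
    rw [comb]
    apply Valuation.map_sum_le
    intro i _
    rw [map_mul]
    calc v (aeval t (p i)) * v (e i) ≤ γ * 1 := mul_le_mul' (h i) (he i).le_one
      _ = γ := mul_one γ

end Fermat.Agent.TOR.T1
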