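import Fermat.Agent.TOR.T1.Basic
import Fermat.Agent.TOR.T1.OnOrders
import Fermat.Agent.TOR.T1.On2

/-!
# TOR / T1 : package T1-ON3 : the family `ee` is orthonormal for `max(v₁,v₂)`
-/

set_option autoImplicit false

open Polynomial ModularCurve AlgebraicCurve

noncomputable section

namespace Fermat.Agent.TOR.T1

open Fermat.Agent.GAL.KL Fermat.Agent.GAL.KLC Fermat.Agent.TOR.KL2
open Fermat.Agent.GAL

variable {K F₀ F k Γ' Γ₀ : Type*} [Field K] [Field F₀] [Field F] [Algebra K F₀]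
  [Algebra K F] [Field k] [LinearOrderedCommGroupWithZero Γ'] [LinearOrderedCommGroupWithZero Γ₀]
  {v₀ : Valuation F₀ Γ'} {ρ₀ : v₀.integer →+* LaurentSeries k} {v : Valuation F Γ₀}
  {ρ : v.integer →+* LaurentSeries k} {α β : F₀ →ₐ[K] F} {w : F ≃ₐ[K] F} {q : ℕ} [NeZero q]
  {x x' : F₀} {ξ ξ' : LaurentSeries k} {m : ℕ}

/-- the arithmetic of the orders. -/
theorem OnE_arith {m q i j : ℕ} (hm : 0 < m) (hi : i < (q + 1) * m) (hj : j < (q + 1) * m)
    (h : (((q + 1) * m : ℕ) : ℤ) ∣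
      (((i / m : ℕ) : ℤ) * (-(m : ℤ)) + ((i % m : ℕ) : ℤ) * (-(m : ℤ) + 1)) -
      (((j / m : ℕ) : ℤ) * (-(m : ℤ)) + ((j % m : ℕ) : ℤ) * (-(m : ℤ) + 1))) : i = j := by
  have hai : i / m < q + 1 := Nat.div_lt_of_lt_mul (by rwa [mul_comm] at hi)
  have haj : j / m < q + 1 := Nat.div_lt_of_lt_mul (by rwa [mul_comm] at hj)
  have hri : i % m < m := Nat.mod_lt _ hm
  have hrj : j % m < m := Nat.mod_lt _ hm
  have hi' := Nat.div_add_mod i m
  have hj' := Nat.div_add_mod j m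
  generalize i / m = a at *
  generalize i % m = r at *
  generalize j / m = a' at *
  generalize j % m = r' at *
  obtain ⟨c, hc⟩ := h
  push_cast at hc
  -- first `r = r'`
  have h1 : (m : ℤ) ∣ (r : ℤ) - r' := by
    refine ⟨(q + 1) * c + a + r - a' - r', ?_⟩
    linear_combination hc
  have hr : r = r' := by
    have h2 : (r : ℤ) - r' = 0 := by
      apply Int.eq_zero_of_abs_lt_dvd h1
      rw [abs_lt]
      constructor <;> omega
    omega
  subst hr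
  have hm0 : (m : ℤ) ≠ 0 := by exact_mod_cast hm.ne'
  have h3 : ((q : ℤ) + 1) ∣ (a : ℤ) - a' := by
    refine ⟨-c, ?_⟩
    apply mul_right_cancel₀ hm0
    linear_combination -hc
  have ha : a = a' := by
    have h2 : (a : ℤ) - a' = 0 := by
      apply Int.eq_zero_of_abs_lt_dvd h3
      rw [abs_lt]
      constructor <;> omega
    omega
  subst ha
  omega

theorem OnE_xi_ne_zero (X : XDat K ρ₀ x x' ξ ξ' m q) : ξ ≠ 0 := by
  intro h
  have h1 := X.ox
  rw [h, HahnSeries.order_zero] at h1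
  have := X.m_pos
  omega

theorem OnE_rd (X : XDat K ρ₀ x x' ξ ξ' m q) (a b : ℕ) :
    Rd ρ₀ (x ^ a * x' ^ b) (ξ ^ a * ξ' ^ b) := (X.rx.pow a).mul (X.rx'.pow b)

theorem OnE_order (X : XDat K ρ₀ x x' ξ ξ' m q) (a b : ℕ) :
    (ξ ^ a * ξ' ^ b).order = (a : ℤ) * (-(m : ℤ)) + (b : ℤ) * (-(m : ℤ) + 1) := by
  rw [HahnSeries.order_mul (pow_ne_zero _ (OnE_xi_ne_zero X)) (pow_ne_zero _ X.ne'),
    HahnSeries.order_pow, HahnSeries.order_pow, X.ox, X.ox']
  simp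

theorem on_e1 (H : Lvl K ρ₀ ρ α β w q) (X : XDat K ρ₀ x x' ξ ξ' m q) :
    ON K v (tt α β x) (e1 α x x' m q) := by
  refine on_of_orders H.red (rd_tt H X) (D := (q + 1) * m) (Nat.mul_pos (Nat.succ_pos q) X.m_pos)
    (order_pow_xi X (q + 1)) (e1 α x x' m q)
    (fun j => ξ ^ ((j : ℕ) / m) * ξ' ^ ((j : ℕ) % m)) (fun j => H.ρα _ _ (OnE_rd X _ _))
    (fun j => mul_ne_zero (pow_ne_zero _ (OnE_xi_ne_zero X)) (pow_ne_zero _ X.ne')) ?_
  intro i j hij
  rw [OnE_order X, OnE_order X] at hij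
  exact Fin.ext (OnE_arith X.m_pos i.2 j.2 hij)

theorem OnE_w_aeval (H : Lvl K ρ₀ ρ α β w q) (x : F₀) (p : K[X]) :
    w (aeval (tt α β x) p) = aeval (tt α β x) p := by
  have h := Polynomial.aeval_algHom_apply (w : F →ₐ[K] F) (tt α β x) p
  have h2 : (w : F →ₐ[K] F) (tt α β x) = tt α β x := w_tt H x
  rw [h2] at h
  exact h.symm

theorem OnE_w_comb (H : Lvl K ρ₀ ρ α β w q) (x x' : F₀) (m : ℕ)
    (p : Fin ((q + 1) * m) → K[X]) :
    w (comb K (tt α β x) p (e1 β x x' m q)) = comb K (tt α β x) p (e1 α x x' m q) := by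
  unfold comb
  rw [map_sum]
  refine Finset.sum_congr rfl fun i _ => ?_
  rw [map_mul, OnE_w_aeval H, e1, e1, H.wβ]

theorem on2_ee (H : Lvl K ρ₀ ρ α β w q) (X : XDat K ρ₀ x x' ξ ξ' m q) (hq : 2 ≤ q) :
    ON2 K v (vw K v w) (tt α β x) (ee α β x x' m q) := by
  refine on2_append (setup H X) (e1 α x x' m q) (e1 β x x' m q) (on_e1 H X) ?_ ?_ ?_
    ((rd_th H X hq).sub_lt H.red Rd.one) ((rd_zero_iff H.red).1 (rd_w_th H X hq))
  · intro p γ
    rw [vw_apply, OnE_w_comb H, on_e1 H X p γ]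
    refine forall_congr' fun i => ?_
    rw [vw_apply, OnE_w_aeval H]
  · intro i
    rw [vw_apply, e1, H.wα]
    exact (H.ρβ _ _ (OnE_rd X _ _)).le_one
  · intro i
    exact (H.ρβ _ _ (OnE_rd X _ _)).le_one

end Fermat.Agent.TOR.T1
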