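import Fermat.Agent.TOR.T1.Defs
import Fermat.Agent.GAL.KLC.LLeqL
import Fermat.Agent.GAL.FF.DegPrincipal
import Fermat.Agent.GAL.KLC.SpansDim

/-!
# TOR / T1 : package T1-DEG1 : an independent family of cardinality `≥ [F : K(t)]` spans
-/

set_option autoImplicit false

open Polynomial ModularCurve AlgebraicCurve

noncomputable section

namespace Fermat.Agent.TOR.T1

open Fermat.Agent.GAL.KL Fermat.Agent.GAL.KLC Fermat.Agent.TOR.KL2 Fermat.Agent.S24.FF
open Fermat.Agent.GAL

variable {K F₀ F k Γ' Γ₀ : Type*} [Field K] [Field F₀] [Field F] [Algebra K F₀]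
  [Algebra K F] [Field k] [LinearOrderedCommGroupWithZero Γ'] [LinearOrderedCommGroupWithZero Γ₀]
  {v₀ : Valuation F₀ Γ'} {ρ₀ : v₀.integer →+* LaurentSeries k} {v : Valuation F Γ₀}
  {ρ : v.integer →+* LaurentSeries k} {α β : F₀ →ₐ[K] F} {w : F ≃ₐ[K] F} {q : ℕ} [NeZero q]
  {x x' : F₀} {ξ ξ' : LaurentSeries k} {m : ℕ}

variable [IsAlgClosed K] [CharZero K] [IsFF1 K F]

/-- abstract: independent family of the right cardinality spans. -/
theorem spans_of_finrank_le {t : F} (ht : Transcendental K t) {d : ℕ} (e : Fin d → F)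
    (hinj : ∀ p : Fin d → K[X], comb K t p e = 0 → p = 0)
    (hfin : Module.finrank (IntermediateField.adjoin K {t}) F ≤ d) : Spans K t e :=
  Fermat.Agent.GAL.KLC.spans_of_finrank_le e ht hinj
    (finiteDimensional_adjoin_of_transcendental ht) hfin

end Fermat.Agent.TOR.T1
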