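import Fermat.Agent.TOR.T1.Poles
import Fermat.Agent.TOR.T1.OnE
import Fermat.Agent.TOR.T1.SpansFin

/-!
# TOR / T1 : package T1-DEG2 : `[F : K(t)] = 2 (q+1) m` and `Spans`
-/

set_option autoImplicit false

open Polynomial ModularCurve AlgebraicCurve

noncomputable section

namespace Fermat.Agent.TOR.T1

open Fermat.Agent.GAL.KL Fermat.Agent.GAL.KLC Fermat.Agent.TOR.KL2 Fermat.Agent.S24.FF
open Fermat.Agent.GAL

variable {K F₀ F k Γ' Γ₀ : Type*} [Field K] [Field F₀] [Field F] [Algebra K F₀]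
  [Algebra K F] [Field k] [LinearOrderedCommGroupWithZero Γ'] [LinearOrderedCommGroupWithZero Γ₀]
  {v₀ : Valuation F₀ Γ'} {ρ₀ : v₀.integer →+* LaurentSeries k} {v : Valuation F Γ₀}
  {ρ : v.integer →+* LaurentSeries k} {α β : F₀ →ₐ[K] F} {w : F ≃ₐ[K] F} {q : ℕ} [NeZero q]
  {x x' : F₀} {ξ ξ' : LaurentSeries k} {m : ℕ}

variable [IsAlgClosed K] [CharZero K] [IsFF1 K F₀] [IsFF1 K F]

theorem transcendental_tt (H : Lvl K ρ₀ ρ α β w q) (X : XDat K ρ₀ x x' ξ ξ' m q) :
    Transcendental K (tt α β x) := by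
  rw [transcendental_iff]
  exact fun p hp => (setup H X).G1.inj p hp

theorem finrank_tt (H : Lvl K ρ₀ ρ α β w q) (X : XDat K ρ₀ x x' ξ ξ' m q) (hq : 2 ≤ q)
    {P₀ : Place K F₀} {P₁ : Place K F} (C : Cusp α β x m q P₀ P₁) :
    Module.finrank (IntermediateField.adjoin K {tt α β x}) F = (q + 1) * m + (q + 1) * m := by
  classical
  have ht := transcendental_tt H X
  obtain ⟨P₂, hP₂⟩ := exists_place_comp w P₁
  have hm : (0 : ℤ) < m := by exact_mod_cast X.m_pos
  have hq' : (2 : ℤ) ≤ q := by exact_mod_cast hq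
  have hx0 : x ≠ 0 := by
    rintro rfl
    have := C.ordx
    rw [Place.ord_zero] at this
    omega
  have hα0 : α x ≠ 0 := (map_ne_zero α).2 hx0
  have hβ0 : β x ≠ 0 := (map_ne_zero β).2 hx0
  have hord : ∀ P : Place K F, P.ord (tt α β x) = P.ord (α x) + P.ord (β x) := fun P =>
    P.ord_mul hα0 hβ0
  have h1 : P₁.ord (tt α β x) = -(((q + 1) * m : ℕ) : ℤ) := by
    rw [hord, C.ordα, C.ordβ, C.ordx]
    push_cast
    ring
  have h2 : P₂.ord (tt α β x) = -(((q + 1) * m : ℕ) : ℤ) := by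
    rw [hP₂, w_tt H, h1]
  have hne : P₁ ≠ P₂ := by
    intro h
    have h3 : P₁.ord (α x) = P₂.ord (α x) := by rw [← h]
    rw [hP₂, H.wα, C.ordα, C.ordβ, C.ordx] at h3
    nlinarith
  have hpole : FF.poleDiv K (tt α β x) =
      Finsupp.single P₁ (((q + 1) * m : ℕ) : ℤ) + Finsupp.single P₂ (((q + 1) * m : ℕ) : ℤ) := by
    ext P
    rw [FF.poleDiv_apply, Finsupp.add_apply]
    by_cases hP1 : P = P₁
    · subst hP1
      rw [h1, Finsupp.single_eq_same, Finsupp.single_eq_of_ne hne, neg_neg, add_zero]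
      exact max_eq_right (by positivity)
    by_cases hP2 : P = P₂
    · subst hP2
      rw [h2, Finsupp.single_eq_same, Finsupp.single_eq_of_ne hne.symm, neg_neg, zero_add]
      exact max_eq_right (by positivity)
    rw [Finsupp.single_eq_of_ne hP1, Finsupp.single_eq_of_ne hP2, add_zero]
    refine max_eq_left ?_
    by_contra hcon
    have h3 : P.ord (α x) + P.ord (β x) < 0 := by
      rw [← hord]
      omega
    have h4 : P.ord (α x) < 0 := by
      by_contra h5
      have h6 : ¬ P.ord (β x) < 0 := fun h => h5 ((pole_iff H X hq C P).2 h)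
      omega
    rcases pole_cases H X hq C hP₂ P h4 with h | h
    · exact hP1 h
    · exact hP2 h
  have hdeg := FF.degree_poleDiv ht
  rw [hpole, map_add, FF.degree_single_one, FF.degree_single_one] at hdeg
  exact_mod_cast hdeg.symm

theorem spans_ee (H : Lvl K ρ₀ ρ α β w q) (X : XDat K ρ₀ x x' ξ ξ' m q) (hq : 2 ≤ q)
    {P₀ : Place K F₀} {P₁ : Place K F} (C : Cusp α β x m q P₀ P₁) :
    Spans K (tt α β x) (ee α β x x' m q) :=
  spans_of_finrank_le (transcendental_tt H X) _ ((on2_ee H X hq).inj (setup H X))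
    (finrank_tt H X hq C).le

end Fermat.Agent.TOR.T1
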