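import Fermat.Agent.TOR.KL2.Defs
import Fermat.Agent.GAL.KLC.Defs
import Fermat.Prelude.Def_AlgebraicCurve_Correspondence

/-!
# TOR / T1 : the concrete inputs of the two-valuation key lemma KL2.  Definitions (no sorry).

ABSTRACT TWO-LEVEL SETTING.  `K` alg. closed of char. 0 (`= ℚ̄`), `F₀ = ` function field of `X₀(M₀)`,
`F = ` function field of `X₀(M₀ q)`, `α β : F₀ → F` the two degeneracy maps (`f(Q)`, `f(Q^q)`),
`w : F ≃ F` the Atkin-Lehner involution (`w α = β`, `w β = α`), `v₀`, `v` the Gauss valuations (at a place of `ℚ̄` over `q`) with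
reduction maps `ρ₀`, `ρ` into `k((Q))`.   `v₁ := v`, `v₂ := v ∘ w`.
`x, x' ∈ F₀` : the KLC functions of level `M₀` (`ρ₀ x = ξ = Q^{-m}(1+…)`, `ρ₀ x' = ξ' = Q^{-(m-1)}(1+…)`).
`t := α x * β x` (it is `w`-invariant, `ρ t = ξ^(q+1)`).
-/

set_option autoImplicit false

open Polynomial ModularCurve AlgebraicCurve

noncomputable section

namespace Fermat.Agent.TOR.T1

open Fermat.Agent.GAL.KL Fermat.Agent.GAL.KLC Fermat.Agent.TOR.KL2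

section Rd

variable {K F k Γ₀ : Type*} [Field K] [Field F] [Algebra K F] [Field k]
  [LinearOrderedCommGroupWithZero Γ₀] {v : Valuation F Γ₀} {ρ : v.integer →+* LaurentSeries k}

/-- `z` is `v`-integral and reduces to `φ`. -/
def Rd (ρ : v.integer →+* LaurentSeries k) (z : F) (φ : LaurentSeries k) : Prop :=
  ∃ h : z ∈ v.integer, ρ ⟨z, h⟩ = φ

theorem Rd.le_one {z : F} {φ : LaurentSeries k} (h : Rd ρ z φ) : v z ≤ 1 := h.1

theorem Rd.mk (z : v.integer) : Rd ρ (z : F) (ρ z) := ⟨z.2, rfl⟩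

theorem exists_rd {z : F} (h : v z ≤ 1) : ∃ φ, Rd ρ z φ := ⟨_, h, rfl⟩

theorem Rd.unique {z : F} {φ ψ : LaurentSeries k} (h : Rd ρ z φ) (h' : Rd ρ z ψ) : φ = ψ := by
  obtain ⟨h1, rfl⟩ := h
  obtain ⟨h2, rfl⟩ := h'
  rfl

theorem Rd.zero : Rd ρ 0 0 := ⟨v.integer.zero_mem, map_zero ρ⟩

theorem Rd.one : Rd ρ 1 1 := ⟨v.integer.one_mem, map_one ρ⟩

theorem Rd.add {z z' : F} {φ φ' : LaurentSeries k} (h : Rd ρ z φ) (h' : Rd ρ z' φ') :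
    Rd ρ (z + z') (φ + φ') := by
  obtain ⟨h1, rfl⟩ := h
  obtain ⟨h2, rfl⟩ := h'
  exact ⟨v.integer.add_mem h1 h2, map_add ρ ⟨z, h1⟩ ⟨z', h2⟩⟩

theorem Rd.mul {z z' : F} {φ φ' : LaurentSeries k} (h : Rd ρ z φ) (h' : Rd ρ z' φ') :
    Rd ρ (z * z') (φ * φ') := by
  obtain ⟨h1, rfl⟩ := h
  obtain ⟨h2, rfl⟩ := h'
  exact ⟨v.integer.mul_mem h1 h2, map_mul ρ ⟨z, h1⟩ ⟨z', h2⟩⟩

theorem Rd.neg {z : F} {φ : LaurentSeries k} (h : Rd ρ z φ) : Rd ρ (-z) (-φ) := by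
  obtain ⟨h1, rfl⟩ := h
  exact ⟨v.integer.neg_mem h1, map_neg ρ ⟨z, h1⟩⟩

theorem Rd.sub {z z' : F} {φ φ' : LaurentSeries k} (h : Rd ρ z φ) (h' : Rd ρ z' φ') :
    Rd ρ (z - z') (φ - φ') := by
  rw [sub_eq_add_neg, sub_eq_add_neg]; exact h.add h'.neg

theorem Rd.pow {z : F} {φ : LaurentSeries k} (h : Rd ρ z φ) (n : ℕ) : Rd ρ (z ^ n) (φ ^ n) := by
  obtain ⟨h1, rfl⟩ := h
  exact ⟨v.integer.pow_mem h1 n, map_pow ρ ⟨z, h1⟩ n⟩

theorem Rd.sum {ι : Type*} (s : Finset ι) {z : ι → F} {φ : ι → LaurentSeries k}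
    (h : ∀ i ∈ s, Rd ρ (z i) (φ i)) : Rd ρ (∑ i ∈ s, z i) (∑ i ∈ s, φ i) := by
  classical
  induction s using Finset.induction_on with
  | empty => simpa using Rd.zero
  | insert a s ha ih =>
    rw [Finset.sum_insert ha, Finset.sum_insert ha]
    exact (h a (Finset.mem_insert_self a s)).add (ih fun i hi => h i (Finset.mem_insert_of_mem hi))

theorem rd_zero_iff (hρ : IsRed K v ρ) {z : F} : Rd ρ z 0 ↔ v z < 1 := by
  constructor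
  · rintro ⟨h, h0⟩
    exact (hρ.ker ⟨z, h⟩).1 h0
  · intro h
    exact ⟨h.le, (hρ.ker ⟨z, h.le⟩).2 h⟩

theorem Rd.v_eq_one (hρ : IsRed K v ρ) {z : F} {φ : LaurentSeries k} (h : Rd ρ z φ) (hφ : φ ≠ 0) :
    v z = 1 := by
  refine le_antisymm h.le_one (not_lt.1 fun hlt => hφ ?_)
  exact h.unique ((rd_zero_iff hρ).2 hlt)

theorem Rd.sub_lt (hρ : IsRed K v ρ) {z z' : F} {φ : LaurentSeries k} (h : Rd ρ z φ)
    (h' : Rd ρ z' φ) : v (z - z') < 1 := by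
  rw [← rd_zero_iff hρ]
  have := h.sub h'
  rwa [sub_self] at this

theorem Rd.of_sub_lt (hρ : IsRed K v ρ) {z z' : F} {φ : LaurentSeries k} (h : Rd ρ z φ)
    (h' : v (z' - z) < 1) : Rd ρ z' φ := by
  have := ((rd_zero_iff hρ).2 h').add h
  rwa [sub_add_cancel, zero_add] at this

theorem Rd.inv (hρ : IsRed K v ρ) {z : F} {φ : LaurentSeries k} (h : Rd ρ z φ) (hφ : φ ≠ 0) :
    Rd ρ z⁻¹ φ⁻¹ := by
  have h1 := h.v_eq_one hρ hφ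
  have hz : z ≠ 0 := by
    rintro rfl
    rw [map_zero] at h1
    exact zero_ne_one h1
  have h2 : v z⁻¹ ≤ 1 := by rw [map_inv₀, h1, inv_one]
  obtain ⟨ψ, hψ⟩ := exists_rd (ρ := ρ) h2
  have h3 := (h.mul hψ).unique (by rw [mul_inv_cancel₀ hz]; exact Rd.one)
  rwa [← eq_inv_of_mul_eq_one_right h3]

theorem Rd.div (hρ : IsRed K v ρ) {z z' : F} {φ φ' : LaurentSeries k} (h : Rd ρ z φ)
    (h' : Rd ρ z' φ') (hφ : φ' ≠ 0) : Rd ρ (z / z') (φ / φ') := by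
  rw [div_eq_mul_inv, div_eq_mul_inv]; exact h.mul (h'.inv hρ hφ)

end Rd

section Lvl

variable (K : Type*) {F₀ F k Γ' Γ₀ : Type*} [Field K] [Field F₀] [Field F] [Algebra K F₀]
  [Algebra K F] [Field k] [LinearOrderedCommGroupWithZero Γ'] [LinearOrderedCommGroupWithZero Γ₀]

/-- the second valuation `v₂ = v ∘ w`. -/
def vw (v : Valuation F Γ₀) (w : F ≃ₐ[K] F) : Valuation F Γ₀ := v.comap (w : F →+* F)

variable {K} in
@[simp] theorem vw_apply (v : Valuation F Γ₀) (w : F ≃ₐ[K] F) (z : F) : vw K v w z = v (w z) := rfl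

/-- the two-level datum. -/
structure Lvl {v₀ : Valuation F₀ Γ'} (ρ₀ : v₀.integer →+* LaurentSeries k) {v : Valuation F Γ₀}
    (ρ : v.integer →+* LaurentSeries k) (α β : F₀ →ₐ[K] F) (w : F ≃ₐ[K] F) (q : ℕ) [NeZero q] :
    Prop where
  red₀ : IsRed K v₀ ρ₀
  red : IsRed K v ρ
  wα : ∀ c, w (α c) = β c
  wβ : ∀ c, w (β c) = α c
  ww : ∀ z, w (w z) = z
  ρα : ∀ c φ, Rd ρ₀ c φ → Rd ρ (α c) φ
  ρβ : ∀ c φ, Rd ρ₀ c φ → Rd ρ (β c) (qExpand k q φ)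

/-- the functions `x, x'` of level `M₀`, with the lifting property of both reduced charts
(`= KLB.exists_redW_LL_eq`). -/
structure XDat {v₀ : Valuation F₀ Γ'} (ρ₀ : v₀.integer →+* LaurentSeries k) (x x' : F₀)
    (ξ ξ' : LaurentSeries k) (m q : ℕ) [NeZero q] : Prop where
  m_pos : 0 < m
  rx : Rd ρ₀ x ξ
  rx' : Rd ρ₀ x' ξ'
  ox : ξ.order = -(m : ℤ)
  ox' : ξ'.order = -(m : ℤ) + 1
  ne' : ξ' ≠ 0
  Vx : qExpand k q ξ = ξ ^ q
  spans : Spans K x (fun i : Fin m => x' ^ (i : ℕ))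
  lift : ∀ c φ, Rd ρ₀ c φ → IsInt k ξ φ → ∃ c', IsInt K x c' ∧ Rd ρ₀ c' φ
  lift' : ∀ c φ, Rd ρ₀ c φ → IsInt k ξ⁻¹ φ → ∃ c', IsInt K x⁻¹ c' ∧ Rd ρ₀ c' φ

variable {K}

/-- the parameter `t = α x * β x = x * w x`. -/
def tt (α β : F₀ →ₐ[K] F) (x : F₀) : F := α x * β x

/-- `z' = α x - (β x)^q`, reducing to `(ξ - V² ξ, 0)`. -/
def zz (α β : F₀ →ₐ[K] F) (q : ℕ) (x : F₀) : F := α x - β x ^ q

/-- the separating element `θ = z' / (z' + w z')`, reducing to `(1, 0)`. -/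
def th (α β : F₀ →ₐ[K] F) (q : ℕ) (x : F₀) : F := zz α β q x / (zz α β q x + zz β α q x)

/-- the first half of the orthonormal basis: `x^a x'^i`, `a ≤ q`, `i < m`  (`j = a m + i`). -/
def e1 (α : F₀ →ₐ[K] F) (x x' : F₀) (m q : ℕ) (j : Fin ((q + 1) * m)) : F :=
  α (x ^ ((j : ℕ) / m) * x' ^ ((j : ℕ) % m))

/-- the orthonormal basis `{θ α(x^a x'^i)} ∪ {(1-θ) β(x^a x'^i)}`. -/
def ee (α β : F₀ →ₐ[K] F) (x x' : F₀) (m q : ℕ) : Fin ((q + 1) * m + (q + 1) * m) → F :=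
  Fin.append (fun j => th α β q x * e1 α x x' m q j) (fun j => (1 - th α β q x) * e1 β x x' m q j)

/-- a pair of compatible semilinear automorphisms (`Fr` = its effect on reductions). -/
structure Semi {v₀ : Valuation F₀ Γ'} (ρ₀ : v₀.integer →+* LaurentSeries k) {v : Valuation F Γ₀}
    (ρ : v.integer →+* LaurentSeries k) (α β : F₀ →ₐ[K] F) (sK : K ≃+* K) (s₀ : F₀ ≃+* F₀)
    (s : F ≃+* F) (Fr : LaurentSeries k →+* LaurentSeries k) : Prop where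
  sK₀ : ∀ a, s₀ (algebraMap K F₀ a) = algebraMap K F₀ (sK a)
  sK : ∀ a, s (algebraMap K F a) = algebraMap K F (sK a)
  sα : ∀ c, s (α c) = α (s₀ c)
  sβ : ∀ c, s (β c) = β (s₀ c)
  ρs₀ : ∀ c φ, Rd ρ₀ c φ → Rd ρ₀ (s₀ c) (Fr φ)
  ρs : ∀ z φ, Rd ρ z φ → Rd ρ (s z) (Fr φ)

/-- the data at the cusps: `P₀ = ord_Q` on `F₀`, `P₁ = ord_Q` on `F`. -/
structure Cusp (α β : F₀ →ₐ[K] F) (x : F₀) (m q : ℕ) (P₀ : Place K F₀) (P₁ : Place K F) : Prop where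
  deg : finrankAlong K α = q + 1
  ordα : ∀ c, P₁.ord (α c) = P₀.ord c
  ordβ : ∀ c, P₁.ord (β c) = q * P₀.ord c
  ordx : P₀.ord x = -(m : ℤ)

variable (K) in
/-- everything the chartwise arguments need: `(u₀, u, η) = (x, t, ξ)` or `(x⁻¹, t⁻¹, ξ⁻¹)`. -/
structure ChartIn {v₀ : Valuation F₀ Γ'} (ρ₀ : v₀.integer →+* LaurentSeries k) {v : Valuation F Γ₀}
    (ρ : v.integer →+* LaurentSeries k) (α : F₀ →ₐ[K] F) (w : F ≃ₐ[K] F) (u₀ : F₀) (u : F)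
    (η : LaurentSeries k) : Prop where
  wu : w u = u
  res : ∀ z φ, Rd ρ z φ → ∃ c, Rd ρ₀ c φ
  ir : ∀ z φ, IsInt K u z → Rd ρ z φ → v (w z) ≤ 1 → IsInt k η φ
  lift : ∀ c φ, Rd ρ₀ c φ → IsInt k η φ → ∃ c', IsInt K u₀ c' ∧ Rd ρ₀ c' φ
  intα : ∀ c, IsInt K u₀ c → IsInt K u (α c)

end Lvl

end Fermat.Agent.TOR.T1
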