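import Fermat.Agent.TOR.T1.Basic
import Fermat.Agent.GAL.KLC.IsIntOrd

/-!
# TOR / T1 : package T1-INT : integrality over `K[x^{±1}]` at level `M₀` gives integrality over `K[t^{±1}]`
-/

set_option autoImplicit false

open Polynomial ModularCurve AlgebraicCurve

noncomputable section

namespace Fermat.Agent.TOR.T1

open Fermat.Agent.GAL.KL Fermat.Agent.GAL.KLC Fermat.Agent.TOR.KL2 Fermat.Agent.S24.FF
open Fermat.Agent.GAL

variable {K F₀ F k Γ' Γ₀ : Type*} [Field K] [Field F₀] [Field F] [Algebra K F₀]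
  [Algebra K F] [Field k] [LinearOrderedCommGroupWithZero Γ'] [LinearOrderedCommGroupWithZero Γ₀]
  {v₀ : Valuation F₀ Γ'} {ρ₀ : v₀.integer →+* LaurentSeries k} {v : Valuation F Γ₀}
  {ρ : v.integer →+* LaurentSeries k} {α β : F₀ →ₐ[K] F} {w : F ≃ₐ[K] F} {q : ℕ} [NeZero q]
  {x x' : F₀} {ξ ξ' : LaurentSeries k} {m : ℕ}

/-- the forward direction of `KLC.isInt_iff_forall_ord` (no transcendence needed). -/
theorem IntTransfer_ord_nonneg {u z : F} (h : IsInt K u z) (P : Place K F) (hP : 0 ≤ P.ord u) :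
    0 ≤ P.ord z := by
  obtain ⟨p, hp, hpz⟩ := h
  have htP : u ∈ P.toValuationSubring := S24.FF.mem_toValuationSubring_of_ord_nonneg P hP
  have hmem : ∀ q : K[X], ((aeval u : K[X] →ₐ[K] F) : K[X] →+* F) q ∈
      P.toValuationSubring.toSubring := fun q =>
    FF.places_aeval_mem P.toValuationSubring P.algebraMap_mem' htP q
  let g : K[X] →+* P.toValuationSubring :=
    ((aeval u : K[X] →ₐ[K] F) : K[X] →+* F).codRestrict P.toValuationSubring.toSubring hmem
  have hint : IsIntegral P.toValuationSubring z := by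
    refine ⟨p.map g, hp.map g, ?_⟩
    rw [eval₂_map]
    exact hpz
  obtain ⟨y, hy⟩ := (IsIntegrallyClosed.isIntegral_iff (R := P.toValuationSubring) (K := F)).1 hint
  apply S24.FF.ord_nonneg_of_mem
  rw [← hy]
  exact y.2

theorem IntTransfer_ne_zero (ht : Transcendental K (tt α β x)) : α x ≠ 0 ∧ β x ≠ 0 := by
  have h0 : tt α β x ≠ 0 := by
    intro h
    apply ht
    rw [h]
    exact isAlgebraic_zero
  exact ⟨left_ne_zero_of_mul h0, right_ne_zero_of_mul h0⟩

variable [IsAlgClosed K] [CharZero K] [IsFF1 K F₀] [IsFF1 K F]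

theorem isInt_α (ht : Transcendental K (tt α β x))
    (hpol : ∀ P : Place K F, P.ord (α x) < 0 ↔ P.ord (β x) < 0) {c : F₀} (hc : IsInt K x c) :
    IsInt K (tt α β x) (α c) := by
  rw [isInt_iff_forall_ord ht]
  intro P hP
  obtain ⟨hα, hβ⟩ := IntTransfer_ne_zero ht
  apply IntTransfer_ord_nonneg (isInt_map_algHom α hc) P
  by_contra hneg
  rw [not_le] at hneg
  have h2 := (hpol P).1 hneg
  rw [tt, P.ord_mul hα hβ] at hP
  omega

theorem isInt_α_inv (ht : Transcendental K (tt α β x))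
    (hpol : ∀ P : Place K F, P.ord (α x) < 0 ↔ P.ord (β x) < 0) {c : F₀} (hc : IsInt K x⁻¹ c) :
    IsInt K (tt α β x)⁻¹ (α c) := by
  rw [isInt_iff_forall_ord (transcendental_inv ht)]
  intro P hP
  obtain ⟨hα, hβ⟩ := IntTransfer_ne_zero ht
  have h1 := isInt_map_algHom α hc
  rw [map_inv₀] at h1
  apply IntTransfer_ord_nonneg h1 P
  rw [P.ord_inv]
  by_contra hneg
  have h2 : ¬ P.ord (β x) < 0 := fun h => by
    have := (hpol P).2 h
    omega
  rw [P.ord_inv, tt, P.ord_mul hα hβ] at hP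
  omega

end Fermat.Agent.TOR.T1
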