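import Fermat.Agent.TOR.T1.Defs
import Fermat.Agent.TOR.KL2.Adapt
import Fermat.Agent.GAL.KLC.GaussON

/-!
# TOR / T1 : package T1-A : basic facts on `t`, `θ`, `v₂ = v ∘ w`
-/

set_option autoImplicit false

open Polynomial ModularCurve AlgebraicCurve

noncomputable section

namespace Fermat.Agent.TOR.T1

open Fermat.Agent.GAL.KL Fermat.Agent.GAL.KLC Fermat.Agent.TOR.KL2
open Fermat.Agent.GAL

variable {K F₀ F k Γ' Γ₀ : Type*} [Field K] [Field F₀] [Field F] [Algebra K F₀]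
  [Algebra K F] [Field k] [LinearOrderedCommGroupWithZero Γ'] [LinearOrderedCommGroupWithZero Γ₀]
  {v₀ : Valuation F₀ Γ'} {ρ₀ : v₀.integer →+* LaurentSeries k} {v : Valuation F Γ₀}
  {ρ : v.integer →+* LaurentSeries k} {α β : F₀ →ₐ[K] F} {w : F ≃ₐ[K] F} {q : ℕ} [NeZero q]
  {x x' : F₀} {ξ ξ' : LaurentSeries k} {m : ℕ}

theorem w_tt (H : Lvl K ρ₀ ρ α β w q) (x : F₀) : w (tt α β x) = tt α β x := by
  rw [tt, map_mul, H.wα, H.wβ, mul_comm]

theorem rd_tt (H : Lvl K ρ₀ ρ α β w q) (X : XDat K ρ₀ x x' ξ ξ' m q) :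
    Rd ρ (tt α β x) (ξ ^ (q + 1)) := by
  have h := (H.ρα x ξ X.rx).mul (H.ρβ x ξ X.rx)
  rw [X.Vx, ← pow_succ'] at h
  exact h

theorem order_pow_xi (X : XDat K ρ₀ x x' ξ ξ' m q) (a : ℕ) : (ξ ^ a).order = -((a * m : ℕ) : ℤ) := by
  rw [HahnSeries.order_pow, X.ox]
  push_cast
  simp

theorem setup (H : Lvl K ρ₀ ρ α β w q) (X : XDat K ρ₀ x x' ξ ξ' m q) :
    Setup K v (vw K v w) (tt α β x) := by
  have G1 : Gauss K v (tt α β x) := by
    obtain ⟨h, hh⟩ := rd_tt H X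
    refine gauss_of_isRed H.red h ?_
    rw [hh, order_pow_xi X]
    have := X.m_pos
    have h2 : 0 < (q + 1) * m := Nat.mul_pos (Nat.succ_pos q) this
    omega
  refine ⟨G1, ?_, ?_⟩
  · intro p γ
    have h1 : w (aeval (tt α β x) p) = aeval (tt α β x) p := by
      have := Polynomial.aeval_algHom_apply (w : F →ₐ[K] F) (tt α β x) p
      rw [AlgEquiv.coe_toAlgHom, w_tt H] at this
      exact this.symm
    simp only [vw_apply, h1, AlgEquiv.commutes]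
    exact G1 p γ
  · intro a
    rw [vw_apply, AlgEquiv.commutes]

theorem arch_vw (hA : Arch v) (w : F ≃ₐ[K] F) : Arch (vw K v w) :=
  fun x hx γ hγ => hA (w x) hx γ hγ

theorem rd_zz (H : Lvl K ρ₀ ρ α β w q) (X : XDat K ρ₀ x x' ξ ξ' m q) :
    Rd ρ (zz α β q x) (ξ - ξ ^ (q * q)) := by
  have h := (H.ρα x ξ X.rx).sub ((H.ρβ x ξ X.rx).pow q)
  rw [X.Vx, ← pow_mul] at h
  exact h

theorem rd_zz' (H : Lvl K ρ₀ ρ α β w q) (X : XDat K ρ₀ x x' ξ ξ' m q) :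
    Rd ρ (zz β α q x) 0 := by
  have h := (H.ρβ x ξ X.rx).sub ((H.ρα x ξ X.rx).pow q)
  rw [X.Vx, sub_self] at h
  exact h

theorem Basic_xi_sub_ne_zero (X : XDat K ρ₀ x x' ξ ξ' m q) (hq : 2 ≤ q) :
    ξ - ξ ^ (q * q) ≠ 0 := by
  intro h
  have h1 : ξ = ξ ^ (q * q) := sub_eq_zero.mp h
  have h2 := congrArg HahnSeries.order h1
  rw [order_pow_xi X, X.ox] at h2
  have h3 : m = q * q * m := by exact_mod_cast neg_injective h2
  have h4 := X.m_pos
  have h5 : 4 ≤ q * q := Nat.mul_le_mul hq hq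
  nlinarith

theorem Basic_rd_den (H : Lvl K ρ₀ ρ α β w q) (X : XDat K ρ₀ x x' ξ ξ' m q) :
    Rd ρ (zz α β q x + zz β α q x) (ξ - ξ ^ (q * q)) := by
  have h := (rd_zz H X).add (rd_zz' H X)
  rwa [add_zero] at h

theorem Basic_den_ne_zero (H : Lvl K ρ₀ ρ α β w q) (X : XDat K ρ₀ x x' ξ ξ' m q) (hq : 2 ≤ q) :
    zz α β q x + zz β α q x ≠ 0 := by
  intro h
  have h1 := Basic_rd_den H X
  rw [h] at h1
  exact Basic_xi_sub_ne_zero X hq (h1.unique Rd.zero)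

theorem rd_th (H : Lvl K ρ₀ ρ α β w q) (X : XDat K ρ₀ x x' ξ ξ' m q) (hq : 2 ≤ q) :
    Rd ρ (th α β q x) 1 := by
  have h := (rd_zz H X).div H.red (Basic_rd_den H X) (Basic_xi_sub_ne_zero X hq)
  rwa [div_self (Basic_xi_sub_ne_zero X hq)] at h

theorem Basic_w_zz (H : Lvl K ρ₀ ρ α β w q) (x : F₀) : w (zz α β q x) = zz β α q x := by
  rw [zz, zz, map_sub, map_pow, H.wα, H.wβ]

theorem Basic_w_zz' (H : Lvl K ρ₀ ρ α β w q) (x : F₀) : w (zz β α q x) = zz α β q x := by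
  rw [zz, zz, map_sub, map_pow, H.wα, H.wβ]

theorem w_th (H : Lvl K ρ₀ ρ α β w q) (X : XDat K ρ₀ x x' ξ ξ' m q) (hq : 2 ≤ q) :
    w (th α β q x) = 1 - th α β q x := by
  have hne := Basic_den_ne_zero H X hq
  rw [th, map_div₀, map_add, Basic_w_zz H, Basic_w_zz' H, add_comm (zz β α q x)]
  field_simp
  ring

theorem rd_w_th (H : Lvl K ρ₀ ρ α β w q) (X : XDat K ρ₀ x x' ξ ξ' m q) (hq : 2 ≤ q) :
    Rd ρ (w (th α β q x)) 0 := by
  rw [w_th H X hq]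
  have h := (Rd.one (ρ := ρ)).sub (rd_th H X hq)
  rwa [sub_self] at h

/-- `w` preserves integrality over `K[u]` if `w u = u`. -/
theorem isInt_w {u z : F} (hu : w u = u) (hz : IsInt K u z) : IsInt K u (w z) :=
  KL2.isInt_map (w : F →+* F) (RingHom.id K) (fun a => by simp) hu hz

/-- integrality over `k[η^N]` implies integrality over `k[η]`. -/
theorem isInt_of_isInt_pow {E : Type*} [Field E] [Algebra k E] {η φ : E} (N : ℕ)
    (h : IsInt k (η ^ N) φ) : IsInt k η φ := by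
  obtain ⟨p, hp, hpx⟩ := h
  refine ⟨p.map (Polynomial.expand k N : k[X] →+* k[X]), hp.map _, ?_⟩
  rw [eval₂_map]
  have h1 : (((aeval η : k[X] →ₐ[k] E) : k[X] →+* E).comp (Polynomial.expand k N : k[X] →+* k[X]))
      = ((aeval (η ^ N) : k[X] →ₐ[k] E) : k[X] →+* E) := by
    refine RingHom.ext fun P => ?_
    exact Polynomial.expand_aeval N P η
  rw [h1]
  exact hpx

/-- `α` transports integrality. -/
theorem isInt_map_algHom (α : F₀ →ₐ[K] F) {u c : F₀} (h : IsInt K u c) : IsInt K (α u) (α c) := by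
  obtain ⟨p, hp, hpx⟩ := h
  refine ⟨p, hp, ?_⟩
  have h1 : ((aeval (α u) : K[X] →ₐ[K] F) : K[X] →+* F)
      = (α : F₀ →+* F).comp ((aeval u : K[X] →ₐ[K] F₀) : K[X] →+* F₀) := by
    refine RingHom.ext fun P => ?_
    exact Polynomial.aeval_algHom_apply α u P
  rw [h1]
  have h2 := Polynomial.hom_eval₂ p ((aeval u : K[X] →ₐ[K] F₀) : K[X] →+* F₀) (α : F₀ →+* F) c
  rw [hpx, map_zero] at h2
  exact h2.symm

end Fermat.Agent.TOR.T1
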