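import Fermat.Agent.TOR.T1.Places
import Fermat.Agent.TOR.T1.Basic

/-!
# TOR / T1 : package T1-PL2 : the poles of `α x` and `β x` are the two cusps `P₁`, `P₂ = P₁ ∘ w`
-/

set_option autoImplicit false

open Polynomial ModularCurve AlgebraicCurve

noncomputable section

namespace Fermat.Agent.TOR.T1

open Fermat.Agent.GAL.KL Fermat.Agent.GAL.KLC Fermat.Agent.TOR.KL2 Fermat.Agent.S24.FF
open Fermat.Agent.GAL

variable {K F₀ F k Γ' Γ₀ : Type*} [Field K] [Field F₀] [Field F] [Algebra K F₀]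
  [Algebra K F] [Field k] [LinearOrderedCommGroupWithZero Γ'] [LinearOrderedCommGroupWithZero Γ₀]
  {v₀ : Valuation F₀ Γ'} {ρ₀ : v₀.integer →+* LaurentSeries k} {v : Valuation F Γ₀}
  {ρ : v.integer →+* LaurentSeries k} {α β : F₀ →ₐ[K] F} {w : F ≃ₐ[K] F} {q : ℕ} [NeZero q]
  {x x' : F₀} {ξ ξ' : LaurentSeries k} {m : ℕ}

variable [IsAlgClosed K] [CharZero K] [IsFF1 K F₀] [IsFF1 K F]

/-- **POLES**: the poles of `α x` are `P₁` and `P₂ = P₁ ∘ w`. -/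
theorem pole_cases (H : Lvl K ρ₀ ρ α β w q) (X : XDat K ρ₀ x x' ξ ξ' m q) (hq : 2 ≤ q)
    {P₀ : Place K F₀} {P₁ P₂ : Place K F} (C : Cusp α β x m q P₀ P₁)
    (hP₂ : ∀ z, P₂.ord z = P₁.ord (w z)) (P : Place K F) (hP : P.ord (α x) < 0) :
    P = P₁ ∨ P = P₂ := by
  have h1 : (P.restrictAlong α (FF.isIntegral_toRingHom α)).ord x < 0 := by
    rw [Place.ord_restrictAlong α (FF.isIntegral_toRingHom α)] at hP
    by_contra hcon
    exact absurd hP (not_lt.mpr (mul_nonneg (Nat.cast_nonneg _) (not_lt.mp hcon)))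
  have h2 : P.restrictAlong α (FF.isIntegral_toRingHom α) = P₀ :=
    unique_pole₀ X.m_pos X.spans P₀ C.ordx _ h1
  exact fiber_cases C.deg P₀ P₁ P₂ C.ordα (fun c => by rw [hP₂, H.wα, C.ordβ]) hq P h2

theorem Poles_imp (H : Lvl K ρ₀ ρ α β w q) (X : XDat K ρ₀ x x' ξ ξ' m q) (hq : 2 ≤ q)
    {P₀ : Place K F₀} {P₁ : Place K F} (C : Cusp α β x m q P₀ P₁) (P : Place K F)
    (hP : P.ord (α x) < 0) : P.ord (β x) < 0 := by
  obtain ⟨P₂, hP₂⟩ := exists_place_comp w P₁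
  have hm : (0 : ℤ) < (m : ℤ) := by exact_mod_cast X.m_pos
  have hq0 : (0 : ℤ) < (q : ℤ) := by exact_mod_cast (by omega : 0 < q)
  rcases pole_cases H X hq C hP₂ P hP with rfl | rfl
  · rw [C.ordβ, C.ordx]
    nlinarith
  · rw [hP₂, H.wβ, C.ordα, C.ordx]
    omega

theorem pole_iff (H : Lvl K ρ₀ ρ α β w q) (X : XDat K ρ₀ x x' ξ ξ' m q) (hq : 2 ≤ q)
    {P₀ : Place K F₀} {P₁ : Place K F} (C : Cusp α β x m q P₀ P₁) (P : Place K F) :
    P.ord (α x) < 0 ↔ P.ord (β x) < 0 := by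
  refine ⟨Poles_imp H X hq C P, fun hP => ?_⟩
  obtain ⟨P', hP'⟩ := exists_place_comp w P
  have h1 : P'.ord (α x) < 0 := by rw [hP', H.wα]; exact hP
  have h2 := Poles_imp H X hq C P' h1
  rwa [hP', H.wβ] at h2

end Fermat.Agent.TOR.T1
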