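import Fermat.Agent.TOR.T1.Basic

/-!
# TOR / T1 : package T1-CH : `RootClosed2` for both valuations on a chart
-/

set_option autoImplicit false

open Polynomial ModularCurve AlgebraicCurve

noncomputable section

namespace Fermat.Agent.TOR.T1

open Fermat.Agent.GAL.KL Fermat.Agent.GAL.KLC Fermat.Agent.TOR.KL2
open Fermat.Agent.GAL

variable {K F₀ F k Γ' Γ₀ : Type*} [Field K] [Field F₀] [Field F] [Algebra K F₀]
  [Algebra K F] [Field k] [LinearOrderedCommGroupWithZero Γ'] [LinearOrderedCommGroupWithZero Γ₀]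
  {v₀ : Valuation F₀ Γ'} {ρ₀ : v₀.integer →+* LaurentSeries k} {v : Valuation F Γ₀}
  {ρ : v.integer →+* LaurentSeries k} {α β : F₀ →ₐ[K] F} {w : F ≃ₐ[K] F} {q : ℕ} [NeZero q]
  {x x' : F₀} {ξ ξ' : LaurentSeries k} {m : ℕ}

theorem rc1 (H : Lvl K ρ₀ ρ α β w q) {u₀ : F₀} {u : F} {η : LaurentSeries k}
    (I : ChartIn K ρ₀ ρ α w u₀ u η) {n : ℕ} (hn : 0 < n) : RootClosed2 K v (vw K v w) u n := by
  intro X b hb _ hb2 hXb hX
  obtain ⟨φ, hφ⟩ := exists_rd (ρ := ρ) hX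
  have h1 : Rd ρ b (φ ^ n) := (hφ.pow n).of_sub_lt H.red (by rwa [Valuation.map_sub_swap])
  have h2 : IsInt k η φ := IsInt.of_pow hn (I.ir b (φ ^ n) hb h1 hb2)
  obtain ⟨c, hc⟩ := I.res X φ hφ
  obtain ⟨c', hc'int, hc'⟩ := I.lift c φ hc h2
  refine ⟨α c', I.intα c' hc'int, ?_, hφ.sub_lt H.red (H.ρα c' φ hc')⟩
  rw [vw_apply, H.wα]
  exact (H.ρβ c' φ hc').le_one

theorem rc2 (H : Lvl K ρ₀ ρ α β w q) {u₀ : F₀} {u : F} {η : LaurentSeries k}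
    (I : ChartIn K ρ₀ ρ α w u₀ u η) {n : ℕ} (hn : 0 < n) : RootClosed2 K (vw K v w) v u n := by
  intro X b hb hb1 hb2 hXb hX
  obtain ⟨b', hb'int, hb'1, hb'2⟩ := rc1 H I hn (w X) (w b) (isInt_w I.wu hb) hb1
    (by rw [vw_apply, H.ww]; exact hb2)
    (by rw [← map_pow, ← map_sub]; exact hXb) hX
  refine ⟨w b', isInt_w I.wu hb'int, hb'1, ?_⟩
  rw [vw_apply, map_sub, H.ww]
  exact hb'2

end Fermat.Agent.TOR.T1
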