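import Fermat.Agent.TOR.T1.Defs
import Fermat.Agent.TOR.KL2.ONBasis
import Fermat.Agent.GAL.KLB.IntRed
import Fermat.Agent.GAL.KL.Lattice

/-!
# TOR / T1 : package T1-IR2 : integrality over `K[t]` passes to the reduction (two valuations; port of `KLB.isInt_rho`)
-/

set_option autoImplicit false

open Polynomial ModularCurve AlgebraicCurve

noncomputable section

namespace Fermat.Agent.TOR.T1

open Fermat.Agent.GAL.KL Fermat.Agent.GAL.KLC Fermat.Agent.TOR.KL2
open Fermat.Agent.GAL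

variable {K F₀ F k Γ' Γ₀ : Type*} [Field K] [Field F₀] [Field F] [Algebra K F₀]
  [Algebra K F] [Field k] [LinearOrderedCommGroupWithZero Γ'] [LinearOrderedCommGroupWithZero Γ₀]
  {v₀ : Valuation F₀ Γ'} {ρ₀ : v₀.integer →+* LaurentSeries k} {v : Valuation F Γ₀}
  {ρ : v.integer →+* LaurentSeries k} {α β : F₀ →ₐ[K] F} {w : F ≃ₐ[K] F} {q : ℕ} [NeZero q]
  {x x' : F₀} {ξ ξ' : LaurentSeries k} {m : ℕ}

theorem isInt_rd2 [IsAlgClosed K] [CharZero K] {v₂ : Valuation F Γ₀} (hρ : IsRed K v ρ) {t : F}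
    (S : Setup K v v₂ t) {d : ℕ} (b : Fin d → F) (hb : ON2 K v v₂ t b) (hbs : Spans K t b)
    {τ : LaurentSeries k} (ht : Rd ρ t τ) {z : F} {φ : LaurentSeries k} (hz : IsInt K t z)
    (h1 : Rd ρ z φ) (h2 : v₂ z ≤ 1) : IsInt k τ φ := by
  obtain ⟨ht1, rfl⟩ := ht
  obtain ⟨hz1, rfl⟩ := h1
  obtain ⟨a, ha⟩ := exists_basis_BB S.G1.inj b (hb.inj S) hbs
  obtain ⟨e, he, hON⟩ := exists_ON2_basis S b hb hbs (BB K t) a ha
  have hemem : ∀ j, IsInt K t (e j) := fun j =>
    (he.2 (e j)).2 ⟨Pi.single j 1, by rw [comb_single, map_one, one_mul]⟩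
  have hP : ∀ j, ∃ P : Fin d → K[X], z * e j = comb K t P e := fun j =>
    (he.2 _).1 (hz.mul (hemem j))
  choose P hP using hP
  have hzN : NN v v₂ z ≤ 1 := NN_le_iff.2 ⟨hz1, h2⟩
  have hv : ∀ j i n, v (algebraMap K F ((P j i).coeff n)) ≤ 1 := by
    intro j i
    refine (S.G1 (P j i) 1).1 ?_
    refine (hON (P j) 1).1 ?_ i
    rw [← hP j]
    calc NN v v₂ (z * e j) ≤ NN v v₂ z * NN v v₂ (e j) := NN_mul_le _ _
      _ = NN v v₂ z := by rw [hON.NN_eq_one j, mul_one]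
      _ ≤ 1 := hzN
  have hQ : ∀ j i, ∃ Q : (KLB.AK K v)[X], Q.map (KLB.AK K v).subtype = P j i := fun j i =>
    KLB.exists_lift_poly (P j i) (hv j i)
  choose Q hQ using hQ
  let T : v.integer := ⟨t, ht1⟩
  let Z : v.integer := ⟨z, hz1⟩
  let E : Fin d → v.integer := fun j => ⟨e j, (le_NN_left (e j)).trans (hON.NN_eq_one j).le⟩
  have hE : ∀ j, Z * E j = ∑ i, eval₂ (KLB.toInt K v) T (Q j i) * E i := by
    intro j
    apply Subtype.ext
    have h1 : ((∑ i, eval₂ (KLB.toInt K v) T (Q j i) * E i : v.integer) : F)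
        = ∑ i, aeval t (P j i) * e i := by
      rw [← Subring.subtype_apply, map_sum]
      refine Finset.sum_congr rfl fun i _ => ?_
      rw [map_mul, Subring.subtype_apply, Subring.subtype_apply, KLB.coe_eval₂_toInt, hQ]
    rw [h1]
    exact hP j
  -- not all `ρ (E j)` vanish
  obtain ⟨p1, hp1⟩ := (he.2 1).1 IsInt.one
  have hv1 : ∀ i n, v (algebraMap K F ((p1 i).coeff n)) ≤ 1 := by
    intro i
    refine (S.G1 (p1 i) 1).1 ?_
    refine (hON p1 1).1 ?_ i
    rw [← hp1, NN_one]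
  have hQ1 : ∀ i, ∃ Q : (KLB.AK K v)[X], Q.map (KLB.AK K v).subtype = p1 i := fun i =>
    KLB.exists_lift_poly (p1 i) (hv1 i)
  choose Q1 hQ1 using hQ1
  have hone : (1 : v.integer) = ∑ i, eval₂ (KLB.toInt K v) T (Q1 i) * E i := by
    apply Subtype.ext
    have h1 : ((∑ i, eval₂ (KLB.toInt K v) T (Q1 i) * E i : v.integer) : F)
        = ∑ i, aeval t (p1 i) * e i := by
      rw [← Subring.subtype_apply, map_sum]
      refine Finset.sum_congr rfl fun i _ => ?_
      rw [map_mul, Subring.subtype_apply, Subring.subtype_apply, KLB.coe_eval₂_toInt, hQ1]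
    rw [h1]
    exact hp1
  have hne : (fun i => ρ (E i)) ≠ 0 := by
    intro h0
    have h3 := congrArg ρ hone
    rw [map_one, map_sum] at h3
    have h4 : ∑ i, ρ (eval₂ (KLB.toInt K v) T (Q1 i) * E i) = 0 := by
      refine Finset.sum_eq_zero fun i _ => ?_
      rw [map_mul, show ρ (E i) = 0 from congrFun h0 i, mul_zero]
    rw [h4] at h3
    exact one_ne_zero h3
  refine KLB.intRed_isIntegralElem _ (fun j i => (Q j i).map (KLB.resK hρ)) (ρ Z) (fun i => ρ (E i))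
    hne fun j => ?_
  rw [← map_mul, hE j, map_sum]
  refine Finset.sum_congr rfl fun i _ => ?_
  rw [map_mul, KLB.rho_aeval hρ]
  rfl

end Fermat.Agent.TOR.T1
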