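import Fermat.Agent.TOR.T1.SemiLemmas
import Fermat.Agent.GR.FormalES

/-!
# TOR / T1 : package T1-PHI : `σ²` is Frobenius-like of exponent `q²` (hence `Rad`); inertia is Frobenius-like of exponent `1`
-/

set_option autoImplicit false

open Polynomial ModularCurve AlgebraicCurve

noncomputable section

namespace Fermat.Agent.TOR.T1

open Fermat.Agent.GAL.KL Fermat.Agent.GAL.KLC Fermat.Agent.TOR.KL2
open Fermat.Agent.GAL

variable {K F₀ F k Γ' Γ₀ : Type*} [Field K] [Field F₀] [Field F] [Algebra K F₀]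
  [Algebra K F] [Field k] [LinearOrderedCommGroupWithZero Γ'] [LinearOrderedCommGroupWithZero Γ₀]
  {v₀ : Valuation F₀ Γ'} {ρ₀ : v₀.integer →+* LaurentSeries k} {v : Valuation F Γ₀}
  {ρ : v.integer →+* LaurentSeries k} {α β : F₀ →ₐ[K] F} {w : F ≃ₐ[K] F} {q : ℕ} [NeZero q]
  {x x' : F₀} {ξ ξ' : LaurentSeries k} {m : ℕ}

variable {sK : K ≃+* K} {s₀ : F₀ ≃+* F₀} {s : F ≃+* F} {Fr : LaurentSeries k →+* LaurentSeries k}

theorem frobLike_sq [ExpChar k q] (H : Lvl K ρ₀ ρ α β w q) {u₀ : F₀} {u : F} {η : LaurentSeries k}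
    (I : ChartIn K ρ₀ ρ α w u₀ u η)
    (hs : Semi ρ₀ ρ α β sK s₀ s (coeffMap (frobenius k q))) (hsw : ∀ z, s (w z) = w (s z))
    (hu₀ : s₀ u₀ = u₀) (hu : s u = u) :
    FrobLike K v (vw K v w) u ((s.trans s : F ≃+* F) : F →+* F) (q ^ 2) := by
  have hint : ∀ y, IsInt K u y → IsInt K u (s y) := fun y hy =>
    isInt_map (s : F →+* F) (sK : K →+* K) hs.sK hu hy
  have hint₀ : ∀ y, IsInt K u₀ y → IsInt K u₀ (s₀ y) := fun y hy =>
    isInt_map (s₀ : F₀ →+* F₀) (sK : K →+* K) hs.sK₀ hu₀ hy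
  refine ⟨fun y hy => hint _ (hint _ hy), fun y hy => hs.le_one (hs.le_one hy),
    fun y hy => hs.lt_one H.red (hs.lt_one H.red hy), fun y hy => ?_, fun y hy => ?_,
    fun b hb hb1 hb2 => ?_⟩
  · show v (w (s (s y))) ≤ 1
    rw [← hsw, ← hsw]
    exact hs.le_one (hs.le_one hy)
  · show v (w (s (s y))) < 1
    rw [← hsw, ← hsw]
    exact hs.lt_one H.red (hs.lt_one H.red hy)
  · obtain ⟨φ, hφ⟩ := exists_rd (ρ := ρ) hb1
    have hφi : IsInt k η φ := I.ir b φ hb hφ hb2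
    obtain ⟨c0, hc0⟩ := I.res b φ hφ
    obtain ⟨c', hc'i, hc'⟩ := I.lift c0 φ hc0 hφi
    have r1 := hs.ρs₀ _ _ hc'
    have r2 := hs.ρs₀ _ _ r1
    have hβ : ∀ c, IsInt K u₀ c → IsInt K u (β c) := fun c hc => by
      rw [← H.wα]; exact isInt_w I.wu (I.intα c hc)
    refine ⟨α (s₀ (s₀ c')) - β (s₀ c') ^ q, ?_, ?_, ?_⟩
    · exact (I.intα _ (hint₀ _ (hint₀ _ hc'i))).sub ((hβ _ (hint₀ _ hc'i)).pow q)
    · have e1 : Rd ρ (α (s₀ (s₀ c')) - β (s₀ c') ^ q)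
          (coeffMap (frobenius k q) (coeffMap (frobenius k q) φ) - φ ^ (q ^ 2)) := by
        have h3 := (H.ρα _ _ r2).sub ((H.ρβ _ _ r1).pow q)
        rwa [← GR.pow_char_eq_qExpand, ← pow_mul, ← sq] at h3
      have e2 : Rd ρ (s (s b) - b ^ (q ^ 2))
          (coeffMap (frobenius k q) (coeffMap (frobenius k q) φ) - φ ^ (q ^ 2)) :=
        (hs.ρs _ _ (hs.ρs _ _ hφ)).sub (hφ.pow _)
      exact e2.sub_lt H.red e1
    · show v (w (α (s₀ (s₀ c')) - β (s₀ c') ^ q)) < 1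
      rw [map_sub, map_pow, H.wα, H.wβ, ← rd_zero_iff H.red]
      have h3 := (H.ρβ _ _ r2).sub ((H.ρα _ _ r1).pow q)
      rwa [← GR.pow_char_eq_qExpand, sub_self] at h3

theorem rad_of_semi [ExpChar k q] (H : Lvl K ρ₀ ρ α β w q) (hq : 2 ≤ q) {u₀ : F₀} {u : F}
    {η : LaurentSeries k} (I : ChartIn K ρ₀ ρ α w u₀ u η)
    (hs : Semi ρ₀ ρ α β sK s₀ s (coeffMap (frobenius k q))) (hsw : ∀ z, s (w z) = w (s z))
    (hu₀ : s₀ u₀ = u₀) (hu : s u = u) : Rad K v (vw K v w) u := by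
  have hsK' : ∀ a, s.symm (algebraMap K F a) = algebraMap K F (sK.symm a) := fun a => by
    rw [RingEquiv.symm_apply_eq, hs.sK, RingEquiv.apply_symm_apply]
  have hu' : s.symm u = u := by rw [RingEquiv.symm_apply_eq, hu]
  have hint : ∀ y, IsInt K u y → IsInt K u (s.symm y) := fun y hy =>
    isInt_map (s.symm : F →+* F) (sK.symm : K →+* K) hsK' hu' hy
  have hsw' : ∀ z, s.symm (w z) = w (s.symm z) := fun z => by
    rw [RingEquiv.symm_apply_eq, hsw, RingEquiv.apply_symm_apply]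
  refine rad_of_frobLike' (s.trans s) (Q := q ^ 2) (by nlinarith)
    (frobLike_sq H I hs hsw hu₀ hu) (fun y hy => hint _ (hint _ hy))
    (fun y hy => hs.symm_lt_one H.red (hs.symm_lt_one H.red hy)) (fun y hy => ?_)
  show v (w (s.symm (s.symm y))) < 1
  rw [← hsw', ← hsw']
  exact hs.symm_lt_one H.red (hs.symm_lt_one H.red hy)

theorem frobLike_inertia (H : Lvl K ρ₀ ρ α β w q) {u : F}
    (hs : Semi ρ₀ ρ α β sK s₀ s (RingHom.id _)) (hsw : ∀ z, s (w z) = w (s z)) (hu : s u = u) :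
    FrobLike K v (vw K v w) u (s : F →+* F) 1 := by
  refine ⟨fun y hy => isInt_map (s : F →+* F) (sK : K →+* K) hs.sK hu hy, fun y hy => hs.le_one hy,
    fun y hy => hs.lt_one H.red hy, fun y hy => ?_, fun y hy => ?_, fun b hb hb1 hb2 => ?_⟩
  · show v (w (s y)) ≤ 1
    rw [← hsw]
    exact hs.le_one hy
  · show v (w (s y)) < 1
    rw [← hsw]
    exact hs.lt_one H.red hy
  · obtain ⟨φ, hφ⟩ := exists_rd (ρ := ρ) hb1
    refine ⟨0, IsInt.zero, ?_, by rw [map_zero]; exact zero_lt_one⟩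
    rw [sub_zero, pow_one]
    exact (hs.ρs _ _ hφ).sub_lt H.red hφ

end Fermat.Agent.TOR.T1
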