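import Fermat.Agent.TOR.T1.Basic

/-!
# TOR / T1 : package T1-RES : the residue field of `v` on `F` is that of `v₀` on `F₀`
-/

set_option autoImplicit false

open Polynomial ModularCurve AlgebraicCurve

noncomputable section

namespace Fermat.Agent.TOR.T1

open Fermat.Agent.GAL.KL Fermat.Agent.GAL.KLC Fermat.Agent.TOR.KL2
open Fermat.Agent.GAL

/-- `qExpand` multiplies orders by `N`. -/
theorem ResField_order_qExpand {R : Type*} [CommRing R] (N : ℕ) [NeZero N] (f : LaurentSeries R) :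
    (qExpand R N f).order = (N : ℤ) * f.order := by
  by_cases hf : f = 0
  · simp [hf]
  have hf' : qExpand R N f ≠ 0 := fun h => hf (qExpand_injective N (by simpa using h))
  apply le_antisymm
  · apply HahnSeries.order_le_of_coeff_ne_zero
    rw [qExpand_coeff_mul]
    exact HahnSeries.coeff_order_eq_zero.not.mpr hf
  · have h1 : (qExpand R N f).coeff (qExpand R N f).order ≠ 0 :=
      HahnSeries.coeff_order_eq_zero.not.mpr hf'
    by_cases hd : (N : ℤ) ∣ (qExpand R N f).order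
    · obtain ⟨m, hm⟩ := hd
      rw [hm] at h1 ⊢
      rw [qExpand_coeff_mul] at h1
      have := HahnSeries.order_le_of_coeff_ne_zero h1
      exact mul_le_mul_of_nonneg_left this (by positivity)
    · exact absurd (qExpand_coeff_of_not_dvd N f hd) h1

/-- `1, η, …, η^(q-1)` are independent over the series in `Q^q` if `ord η = -1`. -/
theorem ResField_indep {k : Type*} [Field k] (q : ℕ) [NeZero q] (η : LaurentSeries k)
    (hη : η.order = -1) (a : Fin q → LaurentSeries k)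
    (h : ∑ l : Fin q, qExpand k q (a l) * η ^ (l : ℕ) = 0) : ∀ l, a l = 0 := by
  have hη0 : η ≠ 0 := by
    rintro rfl
    simp at hη
  by_contra hne
  push Not at hne
  obtain ⟨l₀, hl₀⟩ := hne
  have hne' : ∀ l : Fin q, a l ≠ 0 → qExpand k q (a l) ≠ 0 := fun l hl h0 =>
    hl (qExpand_injective q (by simpa using h0))
  have hord : ∀ l : Fin q, a l ≠ 0 →
      (qExpand k q (a l) * η ^ (l : ℕ)).order = (q : ℤ) * (a l).order - (l : ℕ) := by
    intro l hl
    rw [HahnSeries.order_mul (hne' l hl) (pow_ne_zero _ hη0), ResField_order_qExpand,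
      HahnSeries.order_pow, hη]
    simp
    ring
  have ha : ∀ l : Fin q, qExpand k q (a l) * η ^ (l : ℕ) ≠ 0 → a l ≠ 0 := by
    intro l hl h0
    apply hl
    rw [h0, map_zero, zero_mul]
  obtain ⟨-, -, -, -, hs, -⟩ := GaussON_sum_ne_zero Finset.univ
    (fun l : Fin q => qExpand k q (a l) * η ^ (l : ℕ))
    (by
      intro i _ j _ hi hj hij
      rw [hord i (ha i hi), hord j (ha j hj)] at hij
      have hi' := i.2
      have hj' := j.2
      apply Fin.ext
      have hdvd : (q : ℤ) ∣ ((i : ℕ) : ℤ) - ((j : ℕ) : ℤ) :=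
        ⟨(a i).order - (a j).order, by linarith⟩
      have habs : |((i : ℕ) : ℤ) - ((j : ℕ) : ℤ)| < q := by
        rw [abs_lt]
        constructor <;> omega
      have := Int.eq_zero_of_abs_lt_dvd hdvd habs
      omega)
    ⟨l₀, Finset.mem_univ _, mul_ne_zero (hne' l₀ hl₀) (pow_ne_zero _ hη0)⟩
  exact hs h

variable {K F₀ F k Γ' Γ₀ : Type*} [Field K] [Field F₀] [Field F] [Algebra K F₀]
  [Algebra K F] [Field k] [LinearOrderedCommGroupWithZero Γ'] [LinearOrderedCommGroupWithZero Γ₀]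
  {v₀ : Valuation F₀ Γ'} {ρ₀ : v₀.integer →+* LaurentSeries k} {v : Valuation F Γ₀}
  {ρ : v.integer →+* LaurentSeries k} {α β : F₀ →ₐ[K] F} {w : F ≃ₐ[K] F} {q : ℕ} [NeZero q]
  {x x' : F₀} {ξ ξ' : LaurentSeries k} {m : ℕ}

/-- the family of `q + 2` elements. -/
def ResFieldFam (β : F₀ →ₐ[K] F) (θ z : F) (y : F₀) (N q : ℕ) : Fin 2 ⊕ Fin q → F
  | Sum.inl i => if i = 0 then θ ^ N else θ ^ N * z
  | Sum.inr l => (1 - θ) ^ N * β (y ^ (l : ℕ))

/-- the core of the independence proof. -/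
theorem ResField_core (H : Lvl K ρ₀ ρ α β w q) {θ z : F} {y : F₀} {η φ : LaurentSeries k} {N : ℕ}
    (hN : 0 < N) (hθ1 : Rd ρ θ 1) (hθ0 : Rd ρ (1 - θ) 0) (hwθ : w θ = 1 - θ)
    (hz : Rd ρ z φ) (hwz : Rd ρ ((1 - θ) ^ N * w z) 0) (hy : Rd ρ₀ y η) (hη : η.order = -1)
    (hno : ¬ ∃ c, Rd ρ₀ c φ) (c : Fin 2 ⊕ Fin q → F₀) (hc : ∀ i, v₀ (c i) ≤ 1)
    (hsum : ∑ i, α (c i) * ResFieldFam β θ z y N q i = 0) : ∀ i, v₀ (c i) < 1 := by
  choose φc hφc using fun i => exists_rd (ρ := ρ₀) (hc i)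
  have h0N : (0 : LaurentSeries k) ^ N = 0 := zero_pow hN.ne'
  -- first reduction
  have E1 : α (c (Sum.inl 0)) * θ ^ N + α (c (Sum.inl 1)) * (θ ^ N * z) +
      ∑ l : Fin q, α (c (Sum.inr l)) * ((1 - θ) ^ N * β (y ^ (l : ℕ))) = 0 := by
    rw [← hsum, Fintype.sum_sum_type, Fin.sum_univ_two]
    simp [ResFieldFam]
  have R1 : Rd ρ (α (c (Sum.inl 0)) * θ ^ N + α (c (Sum.inl 1)) * (θ ^ N * z) +
      ∑ l : Fin q, α (c (Sum.inr l)) * ((1 - θ) ^ N * β (y ^ (l : ℕ))))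
      (φc (Sum.inl 0) * 1 ^ N + φc (Sum.inl 1) * (1 ^ N * φ) +
        ∑ l : Fin q, φc (Sum.inr l) * (0 ^ N * qExpand k q (η ^ (l : ℕ)))) :=
    (((H.ρα _ _ (hφc _)).mul (hθ1.pow N)).add ((H.ρα _ _ (hφc _)).mul ((hθ1.pow N).mul hz))).add
      (Rd.sum _ fun l _ => (H.ρα _ _ (hφc _)).mul ((hθ0.pow N).mul (H.ρβ _ _ (hy.pow _))))
  rw [E1] at R1
  have e1 := R1.unique Rd.zero
  simp only [one_pow, mul_one, one_mul, h0N, zero_mul, mul_zero, Finset.sum_const_zero, add_zero] at e1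
  have hφ1 : φc (Sum.inl 1) = 0 := by
    by_contra hne
    apply hno
    refine ⟨-(c (Sum.inl 0)) / c (Sum.inl 1), ?_⟩
    have h1 := (hφc (Sum.inl 0)).neg.div H.red₀ (hφc (Sum.inl 1)) hne
    have h2 : -φc (Sum.inl 0) / φc (Sum.inl 1) = φ := by
      rw [div_eq_iff hne]
      linear_combination -e1
    rwa [h2] at h1
  have hφ0 : φc (Sum.inl 0) = 0 := by
    rw [hφ1, zero_mul, add_zero] at e1
    exact e1
  -- second reduction
  have hwθ' : w (1 - θ) = θ := by rw [map_sub, map_one, hwθ]; ring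
  have E2 : β (c (Sum.inl 0)) * (1 - θ) ^ N + β (c (Sum.inl 1)) * ((1 - θ) ^ N * w z) +
      ∑ l : Fin q, β (c (Sum.inr l)) * (θ ^ N * α (y ^ (l : ℕ))) = 0 := by
    have := congrArg w E1
    simpa only [map_add, map_mul, map_sum, map_pow, H.wα, H.wβ, hwθ, hwθ', map_zero] using this
  have R2 : Rd ρ (β (c (Sum.inl 0)) * (1 - θ) ^ N + β (c (Sum.inl 1)) * ((1 - θ) ^ N * w z) +
      ∑ l : Fin q, β (c (Sum.inr l)) * (θ ^ N * α (y ^ (l : ℕ))))
      (qExpand k q (φc (Sum.inl 0)) * 0 ^ N + qExpand k q (φc (Sum.inl 1)) * 0 +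
        ∑ l : Fin q, qExpand k q (φc (Sum.inr l)) * (1 ^ N * η ^ (l : ℕ))) :=
    (((H.ρβ _ _ (hφc _)).mul (hθ0.pow N)).add ((H.ρβ _ _ (hφc _)).mul hwz)).add
      (Rd.sum _ fun l _ => (H.ρβ _ _ (hφc _)).mul ((hθ1.pow N).mul (H.ρα _ _ (hy.pow _))))
  rw [E2] at R2
  have e2 := R2.unique Rd.zero
  simp only [one_pow, one_mul, h0N, mul_zero, zero_add] at e2
  have hφl := ResField_indep q η hη (fun l => φc (Sum.inr l)) e2
  intro i
  rw [← rd_zero_iff H.red₀]
  have := hφc i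
  rcases i with i | l
  · fin_cases i
    · rwa [show φc (Sum.inl ((⟨0, by omega⟩ : Fin 2))) = 0 from hφ0] at this
    · rwa [show φc (Sum.inl ((⟨1, by omega⟩ : Fin 2))) = 0 from hφ1] at this
  · rwa [hφl l] at this

theorem exists_rd₀ (H : Lvl K ρ₀ ρ α β w q) (X : XDat K ρ₀ x x' ξ ξ' m q) (hq : 2 ≤ q)
    (hA : Arch v) (hdeg : finrankAlong K α = q + 1) {z : F} {φ : LaurentSeries k} (h : Rd ρ z φ) :
    ∃ c, Rd ρ₀ c φ := by
  by_contra hno
  obtain ⟨θ, hθ⟩ : ∃ θ : F, θ = th α β q x := ⟨_, rfl⟩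
  have hθ1 : Rd ρ θ 1 := hθ ▸ rd_th H X hq
  have hwθ : w θ = 1 - θ := hθ ▸ w_th H X hq
  have hθ0 : Rd ρ (1 - θ) 0 := by
    rw [← hwθ, hθ]
    exact rd_w_th H X hq
  have hv : v (1 - θ) < 1 := (rd_zero_iff H.red).1 hθ0
  -- the exponent `N`
  obtain ⟨N, hN, hwz⟩ : ∃ N : ℕ, 0 < N ∧ Rd ρ ((1 - θ) ^ N * w z) 0 := by
    by_cases hz0 : w z = 0
    · exact ⟨1, one_pos, by rw [hz0, mul_zero]; exact Rd.zero⟩
    · have hvz : v (w z) ≠ 0 := (Valuation.ne_zero_iff v).mpr hz0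
      obtain ⟨n, hn⟩ := hA (1 - θ) hv (v (w z))⁻¹ (inv_ne_zero hvz)
      refine ⟨n + 1, Nat.succ_pos n, (rd_zero_iff H.red).2 ?_⟩
      have h1 : v ((1 - θ) ^ n * w z) < 1 := by
        rw [map_mul, map_pow]
        calc v (1 - θ) ^ n * v (w z) < (v (w z))⁻¹ * v (w z) :=
              mul_lt_mul_of_pos_right hn (zero_lt_iff.mpr hvz)
          _ = 1 := inv_mul_cancel₀ hvz
      rw [pow_succ, mul_assoc, mul_comm (1 - θ), ← mul_assoc, map_mul]
      exact mul_lt_one_of_nonneg_of_lt_one_left zero_le h1 hv.le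
  -- `y`
  have hξ0 : ξ ≠ 0 := by
    intro h0
    have := X.ox
    rw [h0, HahnSeries.order_zero] at this
    have := X.m_pos
    omega
  have hy : Rd ρ₀ (x / x') (ξ / ξ') := X.rx.div H.red₀ X.rx' X.ne'
  have hη : (ξ / ξ').order = -1 := by
    have h1 : (ξ / ξ') * ξ' = ξ := div_mul_cancel₀ _ X.ne'
    have h2 := HahnSeries.order_mul (div_ne_zero hξ0 X.ne') X.ne'
    rw [h1, X.ox, X.ox'] at h2
    omega
  have core := ResField_core H hN hθ1 hθ0 hwθ h hwz hy hη hno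
  -- linear independence
  let _ := algebraAlong α
  have hfr : Module.finrank F₀ F = q + 1 := hdeg
  have hfin : Module.Finite F₀ F := Module.finite_of_finrank_pos (by omega)
  have hli : LinearIndependent F₀ (ResFieldFam β θ z (x / x') N q) := by
    rw [Fintype.linearIndependent_iff]
    intro g hg
    by_contra hne
    push Not at hne
    obtain ⟨i₁, hi₁⟩ := hne
    obtain ⟨i₀, -, hmax⟩ := Finset.exists_max_image Finset.univ (fun i => v₀ (g i))
      ⟨i₁, Finset.mem_univ _⟩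
    have hv0 : v₀ (g i₀) ≠ 0 := by
      intro h0
      have h1 := hmax i₁ (Finset.mem_univ _)
      rw [h0] at h1
      exact (Valuation.ne_zero_iff v₀).mpr hi₁ (le_antisymm h1 zero_le)
    have hg0 : g i₀ ≠ 0 := (Valuation.ne_zero_iff v₀).mp hv0
    have h1 := core (fun i => g i / g i₀)
      (fun i => by
        rw [map_div₀]
        exact div_le_one_of_le₀ (hmax i (Finset.mem_univ _)) zero_le)
      (by
        have h2 : ∑ i, α (g i / g i₀) * ResFieldFam β θ z (x / x') N q i =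
            (α (g i₀))⁻¹ * ∑ i, g i • ResFieldFam β θ z (x / x') N q i := by
          rw [Finset.mul_sum]
          refine Finset.sum_congr rfl fun i _ => ?_
          rw [map_div₀, Algebra.smul_def]
          change _ = (α (g i₀))⁻¹ * (α (g i) * _)
          ring
        rw [h2, hg, mul_zero]) i₀
    rw [div_self hg0, map_one] at h1
    exact lt_irrefl _ h1
  have hcard := hli.fintype_card_le_finrank
  rw [hfr, Fintype.card_sum, Fintype.card_fin, Fintype.card_fin] at hcard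
  omega

end Fermat.Agent.TOR.T1
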