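import Fermat.Agent.TOR.T1.Degree
import Fermat.Agent.TOR.T1.ResField
import Fermat.Agent.TOR.T1.IntTransfer
import Fermat.Agent.TOR.T1.IntRed2
import Fermat.Agent.TOR.T1.Chart
import Fermat.Agent.TOR.T1.Phi
import Fermat.Agent.TOR.KL2.Main
import Fermat.Agent.GAL.KLC.LocPow
import Fermat.Agent.S18.QPlace

/-!
# TOR / T1 : abstract assembly.  The two-level datum satisfies all hypotheses of `KL2.keyLemma2`.
-/

set_option autoImplicit false

open Polynomial ModularCurve AlgebraicCurve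

noncomputable section

namespace Fermat.Agent.TOR.T1

open Fermat.Agent.GAL.KL Fermat.Agent.GAL.KLC Fermat.Agent.TOR.KL2 Fermat.Agent.S24.FF
open Fermat.Agent.GAL

variable {K F₀ F k Γ' Γ₀ : Type*} [Field K] [Field F₀] [Field F] [Algebra K F₀]
  [Algebra K F] [Field k] [LinearOrderedCommGroupWithZero Γ'] [LinearOrderedCommGroupWithZero Γ₀]
  {v₀ : Valuation F₀ Γ'} {ρ₀ : v₀.integer →+* LaurentSeries k} {v : Valuation F Γ₀}
  {ρ : v.integer →+* LaurentSeries k} {α β : F₀ →ₐ[K] F} {w : F ≃ₐ[K] F} {q : ℕ} [NeZero q]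
  {x x' : F₀} {ξ ξ' : LaurentSeries k} {m : ℕ}

variable [IsAlgClosed K] [CharZero K] [IsFF1 K F₀] [IsFF1 K F]

theorem xi_ne_zero (X : XDat K ρ₀ x x' ξ ξ' m q) : ξ ≠ 0 := by
  rintro rfl
  have h1 := X.ox
  have h2 := X.m_pos
  rw [HahnSeries.order_zero] at h1
  omega

/-- the chart `t`. -/
theorem chartIn_t (H : Lvl K ρ₀ ρ α β w q) (X : XDat K ρ₀ x x' ξ ξ' m q) (hq : 2 ≤ q)
    (hA : Arch v) {P₀ : Place K F₀} {P₁ : Place K F} (C : Cusp α β x m q P₀ P₁) :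
    ChartIn K ρ₀ ρ α w x (tt α β x) ξ where
  wu := w_tt H x
  res := fun _ _ h => exists_rd₀ H X hq hA C.deg h
  ir := fun _ _ hz h1 h2 =>
    isInt_of_isInt_pow (q + 1)
      (isInt_rd2 H.red (setup H X) _ (on2_ee H X hq) (spans_ee H X hq C) (rd_tt H X) hz h1 h2)
  lift := X.lift
  intα := fun _ hc => isInt_α (transcendental_tt H X) (pole_iff H X hq C) hc

/-- the chart `t⁻¹`. -/
theorem chartIn_t_inv (H : Lvl K ρ₀ ρ α β w q) (X : XDat K ρ₀ x x' ξ ξ' m q) (hq : 2 ≤ q)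
    (hA : Arch v) {P₀ : Place K F₀} {P₁ : Place K F} (C : Cusp α β x m q P₀ P₁) :
    ChartIn K ρ₀ ρ α w x⁻¹ (tt α β x)⁻¹ ξ⁻¹ where
  wu := by rw [map_inv₀, w_tt H x]
  res := fun _ _ h => exists_rd₀ H X hq hA C.deg h
  ir := fun _ _ hz h1 h2 => by
    have S := setup H X
    have h3 : Rd ρ (tt α β x)⁻¹ (ξ⁻¹ ^ (q + 1)) := by
      rw [inv_pow]
      exact (rd_tt H X).inv H.red (pow_ne_zero _ (xi_ne_zero X))
    exact isInt_of_isInt_pow (q + 1)
      (isInt_rd2 H.red S.inv _ ((on2_ee H X hq).inv S) ((spans_ee H X hq C).inv S.G1.ne_zero)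
        h3 hz h1 h2)
  lift := X.lift'
  intα := fun _ hc => isInt_α_inv (transcendental_tt H X) (pole_iff H X hq C) hc

section Frob

variable {sK : K ≃+* K} {s₀ : F₀ ≃+* F₀} {s : F ≃+* F}

/-- both charts satisfy `KL2.Chart`. -/
theorem chart_t [ExpChar k q] (H : Lvl K ρ₀ ρ α β w q) (X : XDat K ρ₀ x x' ξ ξ' m q) (hq : 2 ≤ q)
    (hA : Arch v) {P₀ : Place K F₀} {P₁ : Place K F} (C : Cusp α β x m q P₀ P₁)
    (hs : Semi ρ₀ ρ α β sK s₀ s (coeffMap (frobenius k q))) (hsw : ∀ z, s (w z) = w (s z))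
    (hsx : s₀ x = x) {n : ℕ} (hn : 0 < n) : Chart K v (vw K v w) (tt α β x) n where
  rc1 := rc1 H (chartIn_t H X hq hA C) hn
  rc2 := rc2 H (chartIn_t H X hq hA C) hn
  rad := rad_of_semi H hq (chartIn_t H X hq hA C) hs hsw hsx (hs.s_tt hsx)

theorem chart_t_inv [ExpChar k q] (H : Lvl K ρ₀ ρ α β w q) (X : XDat K ρ₀ x x' ξ ξ' m q)
    (hq : 2 ≤ q) (hA : Arch v) {P₀ : Place K F₀} {P₁ : Place K F} (C : Cusp α β x m q P₀ P₁)
    (hs : Semi ρ₀ ρ α β sK s₀ s (coeffMap (frobenius k q))) (hsw : ∀ z, s (w z) = w (s z))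
    (hsx : s₀ x = x) {n : ℕ} (hn : 0 < n) : Chart K v (vw K v w) (tt α β x)⁻¹ n where
  rc1 := rc1 H (chartIn_t_inv H X hq hA C) hn
  rc2 := rc2 H (chartIn_t_inv H X hq hA C) hn
  rad := rad_of_semi H hq (chartIn_t_inv H X hq hA C) hs hsw (by rw [map_inv₀, hsx])
    (by rw [map_inv₀, hs.s_tt hsx])

/-- **T1, abstract form (general exponent).**  `φ` Frobenius-like of exponent `Q` on both charts. -/
theorem key_of_frobLike [ExpChar k q] (H : Lvl K ρ₀ ρ α β w q) (X : XDat K ρ₀ x x' ξ ξ' m q)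
    (hq : 2 ≤ q) (hA : Arch v) {P₀ : Place K F₀} {P₁ : Place K F} (C : Cusp α β x m q P₀ P₁)
    (hs : Semi ρ₀ ρ α β sK s₀ s (coeffMap (frobenius k q))) (hsw : ∀ z, s (w z) = w (s z))
    (hsx : s₀ x = x) {n : ℕ} (hn : 0 < n) (hvn : v (n : F) = 1)
    (φ : F →+* F) {Q : ℕ} (hQ : 0 < Q)
    (hφ0 : FrobLike K v (vw K v w) (tt α β x) φ Q)
    (hφoo : FrobLike K v (vw K v w) (tt α β x)⁻¹ φ Q)
    {W : F} (hW1 : v (W - 1) < 1) (hW2 : v (w W - 1) < 1)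
    (hdiv : ∀ P : Place K F, (n : ℤ) ∣ P.ord W)
    (hdiv' : ∀ P : Place K F, (n : ℤ) ∣ P.ord (φ W / W ^ Q)) :
    ∃ y : F, y ^ n = φ W / W ^ Q := by
  have S := setup H X
  have htr := transcendental_tt H X
  have htr' : Transcendental K (tt α β x)⁻¹ := transcendental_inv htr
  have hW0 : W ≠ 0 := by
    rintro rfl
    rw [zero_sub, Valuation.map_neg, map_one] at hW1
    exact lt_irrefl _ hW1
  have hφW0 : φ W / W ^ Q ≠ 0 :=
    div_ne_zero ((map_ne_zero φ).2 hW0) (pow_ne_zero _ hW0)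
  have hNN : NN v (vw K v w) (W - 1) < 1 := by
    rw [NN_lt_iff]
    refine ⟨hW1, ?_⟩
    rw [vw_apply, map_sub, map_one]
    exact hW2
  exact keyLemma2 hA (arch_vw hA w) S _ (on2_ee H X hq) (spans_ee H X hq C) hn hvn
    (chart_t H X hq hA C hs hsw hsx hn) (chart_t_inv H X hq hA C hs hsw hsx hn) φ hQ hφ0 hφoo hNN
    (fun c => locPow_of_dvd htr hn hW0 hdiv c) (fun c => locPow_of_dvd htr' hn hW0 hdiv c)
    (fun c => locPow_of_dvd htr hn hφW0 hdiv' c) (fun c => locPow_of_dvd htr' hn hφW0 hdiv' c)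

omit [IsAlgClosed K] [CharZero K] [IsFF1 K F₀] [IsFF1 K F] in
/-- transport of a place by a semilinear automorphism. -/
theorem exists_place_comp_semi (s : F ≃+* F) (sK : K ≃+* K)
    (h : ∀ a, s (algebraMap K F a) = algebraMap K F (sK a)) (P : Place K F) :
    ∃ P' : Place K F, ∀ z, P'.ord z = P.ord (s z) := by
  obtain ⟨π, hπ0, hπ⟩ := FF.exists_ne_zero_ord_eq P 1
  obtain ⟨P', hP'⟩ := S18.exists_place_of_ordFun (K := K) (F := F) (fun z => P.ord (s z))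
    (fun a b ha hb => by
      show P.ord (s (a * b)) = _
      rw [map_mul]
      exact P.ord_mul ((map_ne_zero s).2 ha) ((map_ne_zero s).2 hb))
    (fun a b _ _ hab => by
      show _ ≤ P.ord (s (a + b))
      rw [map_add]
      exact min_ord_le_ord_add P (by rw [← map_add]; exact (map_ne_zero s).2 hab))
    (fun a _ => by
      show P.ord (s (algebraMap K F a)) = 0
      rw [h]
      exact ord_algebraMap P _)
    (s.symm π) ((map_ne_zero s.symm).2 hπ0)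
    (by show P.ord (s (s.symm π)) = 1; rw [s.apply_symm_apply]; exact hπ)
  refine ⟨P', fun z => ?_⟩
  by_cases hz : z = 0
  · subst hz
    rw [map_zero, Place.ord_zero, Place.ord_zero]
  · exact hP' z hz

omit [IsAlgClosed K] [CharZero K] [IsFF1 K F₀] [IsFF1 K F] in
theorem dvd_ord_semi (s : F ≃+* F) (sK : K ≃+* K)
    (h : ∀ a, s (algebraMap K F a) = algebraMap K F (sK a)) {n : ℕ} {W : F}
    (hdiv : ∀ P : Place K F, (n : ℤ) ∣ P.ord W) (P : Place K F) : (n : ℤ) ∣ P.ord (s W) := by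
  obtain ⟨P', hP'⟩ := exists_place_comp_semi s sK h P
  rw [← hP']
  exact hdiv P'

omit [IsAlgClosed K] [CharZero K] [IsFF1 K F₀] [IsFF1 K F] in
theorem dvd_ord_div_pow {n : ℕ} {W W' : F} (hW : W ≠ 0) (hW' : W' ≠ 0)
    (hdiv : ∀ P : Place K F, (n : ℤ) ∣ P.ord W) (hdiv' : ∀ P : Place K F, (n : ℤ) ∣ P.ord W')
    (Q : ℕ) (P : Place K F) : (n : ℤ) ∣ P.ord (W' / W ^ Q) := by
  rw [div_eq_mul_inv, P.ord_mul hW' (inv_ne_zero (pow_ne_zero _ hW)), P.ord_inv, ← zpow_natCast,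
    P.ord_zpow]
  exact dvd_add (hdiv' P) ((dvd_mul_of_dvd_right (hdiv P) _).neg_right)

variable {tK : K ≃+* K} {t₀ : F₀ ≃+* F₀} {tF : F ≃+* F}

/-- **thmA** (inertia, exponent `1`). -/
theorem thmA [ExpChar k q] (H : Lvl K ρ₀ ρ α β w q) (X : XDat K ρ₀ x x' ξ ξ' m q)
    (hq : 2 ≤ q) (hA : Arch v) {P₀ : Place K F₀} {P₁ : Place K F} (C : Cusp α β x m q P₀ P₁)
    (hs : Semi ρ₀ ρ α β sK s₀ s (coeffMap (frobenius k q))) (hsw : ∀ z, s (w z) = w (s z))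
    (hsx : s₀ x = x) {n : ℕ} (hn : 0 < n) (hvn : v (n : F) = 1)
    (ht : Semi ρ₀ ρ α β tK t₀ tF (RingHom.id _)) (htw : ∀ z, tF (w z) = w (tF z))
    (htx : t₀ x = x)
    {W : F} (hW1 : v (W - 1) < 1) (hW2 : v (w W - 1) < 1)
    (hdiv : ∀ P : Place K F, (n : ℤ) ∣ P.ord W) :
    ∃ y : F, y ^ n = tF W / W := by
  have hW0 : W ≠ 0 := by
    rintro rfl
    rw [zero_sub, Valuation.map_neg, map_one] at hW1
    exact lt_irrefl _ hW1
  have h := key_of_frobLike H X hq hA C hs hsw hsx hn hvn (tF : F →+* F) one_pos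
    (frobLike_inertia H ht htw (ht.s_tt htx))
    (frobLike_inertia H ht htw (by rw [map_inv₀, ht.s_tt htx])) hW1 hW2 hdiv
    (dvd_ord_div_pow hW0 ((map_ne_zero tF).2 hW0) hdiv (dvd_ord_semi tF tK ht.sK hdiv) 1)
  rwa [pow_one] at h

/-- **thmB** (square of a Frobenius lift, exponent `q²`). -/
theorem thmB [ExpChar k q] (H : Lvl K ρ₀ ρ α β w q) (X : XDat K ρ₀ x x' ξ ξ' m q)
    (hq : 2 ≤ q) (hA : Arch v) {P₀ : Place K F₀} {P₁ : Place K F} (C : Cusp α β x m q P₀ P₁)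
    (hs : Semi ρ₀ ρ α β sK s₀ s (coeffMap (frobenius k q))) (hsw : ∀ z, s (w z) = w (s z))
    (hsx : s₀ x = x) {n : ℕ} (hn : 0 < n) (hvn : v (n : F) = 1)
    {W : F} (hW1 : v (W - 1) < 1) (hW2 : v (w W - 1) < 1)
    (hdiv : ∀ P : Place K F, (n : ℤ) ∣ P.ord W) :
    ∃ y : F, y ^ n = s (s W) / W ^ (q ^ 2) := by
  have hW0 : W ≠ 0 := by
    rintro rfl
    rw [zero_sub, Valuation.map_neg, map_one] at hW1
    exact lt_irrefl _ hW1
  exact key_of_frobLike H X hq hA C hs hsw hsx hn hvn ((s.trans s : F ≃+* F) : F →+* F)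
    (pow_pos (by omega) 2)
    (frobLike_sq H (chartIn_t H X hq hA C) hs hsw hsx (hs.s_tt hsx))
    (frobLike_sq H (chartIn_t_inv H X hq hA C) hs hsw (by rw [map_inv₀, hsx])
      (by rw [map_inv₀, hs.s_tt hsx])) hW1 hW2 hdiv
    (dvd_ord_div_pow hW0 ((map_ne_zero s).2 ((map_ne_zero s).2 hW0)) hdiv
      (dvd_ord_semi s sK hs.sK (dvd_ord_semi s sK hs.sK hdiv)) _)

end Frob

end Fermat.Agent.TOR.T1
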