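import Fermat.Agent.TOR.T1.Basic

/-!
# TOR / T1 : (AP) weak approximation for the pair `v₁ = v`, `v₂ = v ∘ w`

`approx2` : two rank-one (`Arch`) valuations `v₁ v₂` on a field separated by an element `θ`
(`v₁ (θ - 1) < 1`, `v₂ θ < 1`): for all `g₁ g₂ ≠ 0` there is `z ≠ 0` with
`v₁ (z / g₁ - 1) < 1` and `v₂ (z / g₂ - 1) < 1`.
`approx_small` : the quantitative idempotent approximation `θ_N`.
`approx` : the T1 form (`Lvl`, `XDat`).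
-/

set_option autoImplicit false

open Polynomial ModularCurve AlgebraicCurve

noncomputable section

namespace Fermat.Agent.TOR.T1

open Fermat.Agent.GAL.KL Fermat.Agent.GAL.KLC Fermat.Agent.TOR.KL2
open Fermat.Agent.GAL

section General

variable {F Γ₀ : Type*} [Field F] [LinearOrderedCommGroupWithZero Γ₀]

theorem Approx_pow_lt {v : Valuation F Γ₀} (hA : Arch v) {x : F} (hx : v x < 1) {γ : Γ₀}
    (hγ : γ ≠ 0) : ∃ N₀ : ℕ, ∀ N, N₀ ≤ N → v x ^ N < γ := by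
  obtain ⟨N₀, h⟩ := hA x hx γ hγ
  exact ⟨N₀, fun N hN => lt_of_le_of_lt (pow_le_pow_right_of_le_one' hx.le hN) h⟩

/-- if `v a = 1` and `v b < 1` then `v (a ^ N + b ^ N) = 1` for `N ≥ 1`. -/
theorem Approx_den {v : Valuation F Γ₀} {a b : F} (ha : v a = 1) (hb : v b < 1) {N : ℕ}
    (hN : N ≠ 0) : v (a ^ N + b ^ N) = 1 := by
  have h1 : v (a ^ N) = 1 := by rw [map_pow, ha, one_pow]
  have h2 : v (b ^ N) < 1 := by rw [map_pow]; exact pow_lt_one₀ zero_le hb hN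
  rw [Valuation.map_add_eq_of_lt_left v (by rw [h1]; exact h2), h1]

/-- the approximate idempotents: for every `γ ≠ 0` there is `e` with `v₁ (1 - e) < γ`,
`v₂ e < γ`. -/
theorem approx_small {v₁ v₂ : Valuation F Γ₀} (hA1 : Arch v₁) (hA2 : Arch v₂) {θ : F}
    (h1 : v₁ (θ - 1) < 1) (h2 : v₂ θ < 1) {γ₁ γ₂ : Γ₀} (hγ₁ : γ₁ ≠ 0) (hγ₂ : γ₂ ≠ 0) :
    ∃ e : F, v₁ (1 - e) < γ₁ ∧ v₂ e < γ₂ := by
  have h1' : v₁ (1 - θ) < 1 := by rwa [Valuation.map_sub_swap]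
  obtain ⟨N₁, hN₁⟩ := Approx_pow_lt hA1 h1' hγ₁
  obtain ⟨N₂, hN₂⟩ := Approx_pow_lt hA2 h2 hγ₂
  set N := N₁ + N₂ + 1 with hN
  have hN0 : N ≠ 0 := by omega
  have a1 : v₁ θ = 1 := by
    have : θ = 1 + (θ - 1) := by ring
    rw [this, Valuation.map_add_eq_of_lt_left v₁ (by rw [map_one]; exact h1), map_one]
  have a2 : v₂ (1 - θ) = 1 := by
    rw [sub_eq_add_neg, Valuation.map_add_eq_of_lt_left v₂ (by rw [map_one, Valuation.map_neg]; exact h2),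
      map_one]
  have d1 : v₁ (θ ^ N + (1 - θ) ^ N) = 1 := Approx_den a1 h1' hN0
  have d2 : v₂ (θ ^ N + (1 - θ) ^ N) = 1 := by
    rw [add_comm]; exact Approx_den a2 h2 hN0
  have hne : θ ^ N + (1 - θ) ^ N ≠ 0 := by
    intro h
    rw [h, map_zero] at d1
    exact zero_ne_one d1
  refine ⟨θ ^ N / (θ ^ N + (1 - θ) ^ N), ?_, ?_⟩
  · have : 1 - θ ^ N / (θ ^ N + (1 - θ) ^ N) = (1 - θ) ^ N / (θ ^ N + (1 - θ) ^ N) := by
      field_simp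
      ring
    rw [this, map_div₀, d1, div_one, map_pow]
    exact hN₁ N (by omega)
  · rw [map_div₀, d2, div_one, map_pow]
    exact hN₂ N (by omega)

/-- **weak approximation** for two rank one valuations separated by `θ`. -/
theorem approx2 {v₁ v₂ : Valuation F Γ₀} (hA1 : Arch v₁) (hA2 : Arch v₂) {θ : F}
    (h1 : v₁ (θ - 1) < 1) (h2 : v₂ θ < 1) {g₁ g₂ : F} (hg₁ : g₁ ≠ 0) (hg₂ : g₂ ≠ 0) :
    ∃ z : F, z ≠ 0 ∧ v₁ (z / g₁ - 1) < 1 ∧ v₂ (z / g₂ - 1) < 1 := by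
  by_cases hg : g₁ = g₂
  · subst hg
    exact ⟨g₁, hg₁, by rw [div_self hg₁, sub_self, map_zero]; exact zero_lt_one,
      by rw [div_self hg₁, sub_self, map_zero]; exact zero_lt_one⟩
  have c1 : g₂ / g₁ - 1 ≠ 0 := by
    intro h
    rw [sub_eq_zero, div_eq_one_iff_eq hg₁] at h
    exact hg h.symm
  have c2 : g₁ / g₂ - 1 ≠ 0 := by
    intro h
    rw [sub_eq_zero, div_eq_one_iff_eq hg₂] at h
    exact hg h
  have e1 : v₁ (g₂ / g₁ - 1) ≠ 0 := (Valuation.ne_zero_iff v₁).2 c1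
  have e2 : v₂ (g₁ / g₂ - 1) ≠ 0 := (Valuation.ne_zero_iff v₂).2 c2
  obtain ⟨e, he1, he2⟩ := approx_small hA1 hA2 h1 h2 (inv_ne_zero e1) (inv_ne_zero e2)
  have k1 : v₁ ((g₁ * e + g₂ * (1 - e)) / g₁ - 1) < 1 := by
    have : (g₁ * e + g₂ * (1 - e)) / g₁ - 1 = (1 - e) * (g₂ / g₁ - 1) := by
      field_simp
      ring
    rw [this, map_mul]
    calc v₁ (1 - e) * v₁ (g₂ / g₁ - 1) < (v₁ (g₂ / g₁ - 1))⁻¹ * v₁ (g₂ / g₁ - 1) :=
          mul_lt_mul_of_pos_right he1 (zero_lt_iff.2 e1)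
      _ = 1 := inv_mul_cancel₀ e1
  have k2 : v₂ ((g₁ * e + g₂ * (1 - e)) / g₂ - 1) < 1 := by
    have : (g₁ * e + g₂ * (1 - e)) / g₂ - 1 = e * (g₁ / g₂ - 1) := by
      field_simp
      ring
    rw [this, map_mul]
    calc v₂ e * v₂ (g₁ / g₂ - 1) < (v₂ (g₁ / g₂ - 1))⁻¹ * v₂ (g₁ / g₂ - 1) :=
          mul_lt_mul_of_pos_right he2 (zero_lt_iff.2 e2)
      _ = 1 := inv_mul_cancel₀ e2
  refine ⟨g₁ * e + g₂ * (1 - e), ?_, k1, k2⟩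
  intro h
  rw [h, zero_div, zero_sub, Valuation.map_neg, map_one] at k1
  exact lt_irrefl _ k1

end General

variable {K F₀ F k Γ' Γ₀ : Type*} [Field K] [Field F₀] [Field F] [Algebra K F₀]
  [Algebra K F] [Field k] [LinearOrderedCommGroupWithZero Γ'] [LinearOrderedCommGroupWithZero Γ₀]
  {v₀ : Valuation F₀ Γ'} {ρ₀ : v₀.integer →+* LaurentSeries k} {v : Valuation F Γ₀}
  {ρ : v.integer →+* LaurentSeries k} {α β : F₀ →ₐ[K] F} {w : F ≃ₐ[K] F} {q : ℕ} [NeZero q]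
  {x x' : F₀} {ξ ξ' : LaurentSeries k} {m : ℕ}

/-- (AP), abstract form with `w`. -/
theorem approx_w (hA : Arch v) {θ : F} (h1 : v (θ - 1) < 1) (h2 : v (w θ) < 1) {g₁ g₂ : F}
    (hg₁ : g₁ ≠ 0) (hg₂ : g₂ ≠ 0) :
    ∃ z : F, z ≠ 0 ∧ v (z / g₁ - 1) < 1 ∧ v (w z / g₂ - 1) < 1 := by
  have hg₂' : w.symm g₂ ≠ 0 := by
    intro h
    exact hg₂ (by simpa using congrArg w h)
  obtain ⟨z, hz, k1, k2⟩ := approx2 (v₁ := v) (v₂ := vw K v w) hA (arch_vw hA w) h1 h2 hg₁ hg₂'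
  refine ⟨z, hz, k1, ?_⟩
  rw [vw_apply, map_sub, map_div₀, AlgEquiv.apply_symm_apply, map_one] at k2
  exact k2

/-- (AP) in the T1 setting. -/
theorem approx (H : Lvl K ρ₀ ρ α β w q) (X : XDat K ρ₀ x x' ξ ξ' m q) (hq : 2 ≤ q) (hA : Arch v)
    {g₁ g₂ : F} (hg₁ : g₁ ≠ 0) (hg₂ : g₂ ≠ 0) :
    ∃ z : F, z ≠ 0 ∧ v (z / g₁ - 1) < 1 ∧ v (w z / g₂ - 1) < 1 :=
  approx_w hA ((rd_th H X hq).sub_lt H.red Rd.one) ((rd_zero_iff H.red).1 (rd_w_th H X hq)) hg₁ hg₂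

end Fermat.Agent.TOR.T1
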