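import Fermat.Agent.TOR.T1.Defs
import Fermat.Agent.GAL.KLB.Count

/-!
# TOR / T1 : package T1-LIFT : both reduced charts of level `M₀` lift (from `KLB.exists_redW_LL_eq`)
-/

set_option autoImplicit false

open Polynomial ModularCurve AlgebraicCurve

noncomputable section

namespace Fermat.Agent.TOR.T1

open Fermat.Agent.GAL.KL Fermat.Agent.GAL.KLC Fermat.Agent.TOR.KL2
open Fermat.Agent.GAL

variable {K F₀ F k Γ' Γ₀ : Type*} [Field K] [Field F₀] [Field F] [Algebra K F₀]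
  [Algebra K F] [Field k] [LinearOrderedCommGroupWithZero Γ'] [LinearOrderedCommGroupWithZero Γ₀]
  {v₀ : Valuation F₀ Γ'} {ρ₀ : v₀.integer →+* LaurentSeries k} {v : Valuation F Γ₀}
  {ρ : v.integer →+* LaurentSeries k} {α β : F₀ →ₐ[K] F} {w : F ≃ₐ[K] F} {q : ℕ} [NeZero q]
  {x x' : F₀} {ξ ξ' : LaurentSeries k} {m : ℕ}

theorem lift_of_count [IsAlgClosed K] [CharZero K] (hρ : IsRed K v ρ) {x x' : F}
    (hx : x ∈ v.integer) (hx' : x' ∈ v.integer) {m : ℕ} (hm : 0 < m)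
    (hxo : (ρ ⟨x, hx⟩).order = -(m : ℤ)) (hxo' : (ρ ⟨x', hx'⟩).order = -(m : ℤ) + 1)
    (hSp : Spans K x (fun i : Fin m => x' ^ (i : ℕ))) {g : ℕ}
    (hRI : ∀ a : ℕ, ((a * m + 1 : ℕ) : ℤ) - g ≤ Module.finrank K (LL K x a))
    (f : Fin g → LaurentSeries k) (hf : LinearIndependent k f) (hf0 : ∀ j, 0 < (f j).order)
    (hb2 : ∀ z : v.integer, IsInt k (ρ ⟨x, hx⟩) (ρ z) → ∀ j, (ρ z * f j).coeff 0 = 0) :
    (∀ c φ, Rd ρ c φ → IsInt k (ρ ⟨x, hx⟩) φ → ∃ c', IsInt K x c' ∧ Rd ρ c' φ) ∧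
    (∀ c φ, Rd ρ c φ → IsInt k (ρ ⟨x, hx⟩)⁻¹ φ → ∃ c', IsInt K x⁻¹ c' ∧ Rd ρ c' φ) := by
  have hG : Gauss K v x := gauss_of_isRed hρ hx (by rw [hxo]; omega)
  obtain ⟨a₀, ha₀⟩ := KLB.exists_redW_LL_eq hρ hx hx' hm hxo hxo' hSp hRI f hf hf0 hb2
  set X : v.integer := ⟨x, hx⟩ with hX
  have hξ0 : ρ X ≠ 0 := by
    intro h
    rw [h, HahnSeries.order_zero] at hxo
    omega
  constructor
  · rintro c φ ⟨hc, rfl⟩ h3
    obtain ⟨m₀, hm₀⟩ := IsInt.shift (t := (ρ X)⁻¹) (inv_ne_zero hξ0) (by rw [inv_inv]; exact h3)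
    have hmem : ρ ⟨c, hc⟩ ∈ KLB.Bbar hρ (ρ X) (max a₀ m₀) :=
      ⟨⟨h3, hm₀ _ (le_max_right _ _)⟩, _, rfl⟩
    rw [← (ha₀ _ (le_max_left _ _)).1] at hmem
    obtain ⟨z, hz, hzρ⟩ := hmem
    exact ⟨z, hz.1, z.2, hzρ⟩
  · rintro c φ ⟨hc, rfl⟩ h3
    obtain ⟨m₀, hm₀⟩ := IsInt.shift (t := ρ X) hξ0 h3
    set a := max a₀ m₀ with ha
    have hmem : ρ (X ^ a * ⟨c, hc⟩) ∈ KLB.Bbar hρ (ρ X) a := by
      refine ⟨⟨?_, ?_⟩, _, rfl⟩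
      · rw [map_mul, map_pow]
        exact hm₀ _ (le_max_right _ _)
      · rw [map_mul, map_pow, ← mul_assoc, ← mul_pow, inv_mul_cancel₀ hξ0, one_pow, one_mul]
        exact h3
    rw [← (ha₀ _ (le_max_left _ _)).1] at hmem
    obtain ⟨z, hz, hzρ⟩ := hmem
    refine ⟨x⁻¹ ^ a * z, hz.2, (KLB.invInt X hG.v_t ^ a * z).2, ?_⟩
    change ρ (KLB.invInt X hG.v_t ^ a * z) = _
    rw [map_mul, map_pow, KLB.rho_invInt, hzρ, map_mul, map_pow, ← mul_assoc, ← mul_pow,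
      inv_mul_cancel₀ hξ0, one_pow, one_mul]

end Fermat.Agent.TOR.T1
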