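import Fermat.Agent.TOR.T1.Defs
import Fermat.Agent.GAL.FF.ExtAlong
import Fermat.Agent.GAL.KLC.LLeqL
import Fermat.Agent.S18.QPlace

/-!
# TOR / T1 : package T1-PL1 : generic facts on places
-/

set_option autoImplicit false

open Polynomial ModularCurve AlgebraicCurve

noncomputable section

namespace Fermat.Agent.TOR.T1

open Fermat.Agent.GAL.KL Fermat.Agent.GAL.KLC Fermat.Agent.TOR.KL2 Fermat.Agent.S24.FF
open Fermat.Agent.GAL

variable {K F₀ F k Γ' Γ₀ : Type*} [Field K] [Field F₀] [Field F] [Algebra K F₀]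
  [Algebra K F] [Field k] [LinearOrderedCommGroupWithZero Γ'] [LinearOrderedCommGroupWithZero Γ₀]
  {v₀ : Valuation F₀ Γ'} {ρ₀ : v₀.integer →+* LaurentSeries k} {v : Valuation F Γ₀}
  {ρ : v.integer →+* LaurentSeries k} {α β : F₀ →ₐ[K] F} {w : F ≃ₐ[K] F} {q : ℕ} [NeZero q]
  {x x' : F₀} {ξ ξ' : LaurentSeries k} {m : ℕ}

variable [IsAlgClosed K] [CharZero K] [IsFF1 K F₀] [IsFF1 K F]

/-- transport of a place by an automorphism. -/
theorem exists_place_comp (w : F ≃ₐ[K] F) (P : Place K F) :
    ∃ P' : Place K F, ∀ z, P'.ord z = P.ord (w z) := by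
  refine ⟨w.symm • P, fun z => ?_⟩
  have h := Place.ord_smul w.symm P (w z)
  rwa [AlgEquiv.symm_apply_apply] at h

theorem place_ext_ord {P P' : Place K F} (h : ∀ z, P.ord z = P'.ord z) : P = P' := by
  apply Place.ext
  ext z
  constructor
  · intro hz
    exact mem_toValuationSubring_of_ord_nonneg P' (h z ▸ ord_nonneg_of_mem P hz)
  · intro hz
    exact mem_toValuationSubring_of_ord_nonneg P ((h z).symm ▸ ord_nonneg_of_mem P' hz)

theorem places_finrank_le_of_spans {x : F₀} {m : ℕ} {e : Fin m → F₀} (hx : Transcendental K x)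
    (hs : Spans K x e) : Module.finrank (IntermediateField.adjoin K {x}) F₀ ≤ m := by
  have hmem : ∀ q : K[X], aeval x q ∈ IntermediateField.adjoin K {x} := fun q =>
    (IntermediateField.mem_adjoin_simple_iff K _).2 ⟨q, 1, by simp⟩
  have htop : Submodule.span (IntermediateField.adjoin K {x}) (Set.range e) = ⊤ := by
    rw [eq_top_iff]
    intro z _
    obtain ⟨q, p, hq, hqz⟩ := hs z
    have hq0 : aeval x q ≠ 0 := fun h0 => hq ((transcendental_iff.1 hx) q h0)
    have hz : z = ∑ i, (⟨aeval x (p i) / aeval x q, div_mem (hmem _) (hmem _)⟩ :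
        IntermediateField.adjoin K {x}) • e i := by
      have h1 : ∀ i, (⟨aeval x (p i) / aeval x q, div_mem (hmem _) (hmem _)⟩ :
          IntermediateField.adjoin K {x}) • e i = (aeval x q)⁻¹ * (aeval x (p i) * e i) := by
        intro i
        rw [IntermediateField.smul_def, smul_eq_mul]
        show aeval x (p i) / aeval x q * e i = _
        field_simp
      rw [Finset.sum_congr rfl fun i _ => h1 i, ← Finset.mul_sum]
      have h2 : ∑ i, aeval x (p i) * e i = aeval x q * z := hqz.symm
      rw [h2, inv_mul_cancel_left₀ hq0]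
    rw [hz]
    exact Submodule.sum_mem _ fun i _ => Submodule.smul_mem _ _ (Submodule.subset_span ⟨i, rfl⟩)
  have h1 := finrank_range_le_card (R := IntermediateField.adjoin K {x}) e
  rw [Set.finrank, htop, finrank_top, Fintype.card_fin] at h1
  exact h1

/-- `[F₀ : K(x)] ≤ m` and `ord_{P₀} x = -m` : `P₀` is the only pole of `x`. -/
theorem unique_pole₀ {x : F₀} {m : ℕ} (hm : 0 < m) {e : Fin m → F₀} (hs : Spans K x e)
    (P₀ : Place K F₀) (hP₀ : P₀.ord x = -(m : ℤ)) (P : Place K F₀) (hP : P.ord x < 0) : P = P₀ := by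
  classical
  by_contra hne
  have hx : Transcendental K x := transcendental_of_ord_ne_zero P (by omega)
  have h1 := FF.sum_ord_le_finrank (transcendental_inv hx) {P, P₀} (by
    intro v hv
    rw [Finset.mem_insert, Finset.mem_singleton] at hv
    rw [v.ord_inv]
    rcases hv with rfl | rfl <;> omega)
  rw [finrank_adjoin_inv, Finset.sum_pair hne, P.ord_inv, P₀.ord_inv] at h1
  have h2 : (Module.finrank (IntermediateField.adjoin K {x}) F₀ : ℤ) ≤ m := by
    exact_mod_cast places_finrank_le_of_spans hx hs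
  omega

theorem places_ramificationIndexAlong_pos (P : Place K F) :
    0 < P.ramificationIndexAlong α := by
  letI := algebraAlong α
  haveI := isScalarTower_along α
  haveI := isIntegral_along α (FF.isIntegral_toRingHom α)
  exact Place.ramificationIndex_pos P

theorem places_restrict_eq (P₀ : Place K F₀) (P' : Place K F) {r : ℕ} (hr : 0 < r)
    (h : ∀ c, P'.ord (α c) = r * P₀.ord c) :
    P'.restrictAlong α (FF.isIntegral_toRingHom α) = P₀ ∧ P'.ramificationIndexAlong α = r := by
  set R := P'.restrictAlong α (FF.isIntegral_toRingHom α) with hR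
  set e := P'.ramificationIndexAlong α with he
  have he0 : 0 < e := places_ramificationIndexAlong_pos P'
  have key : ∀ c, (e : ℤ) * R.ord c = r * P₀.ord c := fun c => by
    rw [← h c, Place.ord_restrictAlong α (FF.isIntegral_toRingHom α) P' c]
  obtain ⟨c₀, -, hc₀⟩ := FF.exists_ne_zero_ord_eq R 1
  obtain ⟨c₁, -, hc₁⟩ := FF.exists_ne_zero_ord_eq P₀ 1
  have k0 := key c₀
  have k1 := key c₁
  rw [hc₀, mul_one] at k0
  rw [hc₁, mul_one] at k1
  have hr' : (0 : ℤ) < r := by exact_mod_cast hr
  have he' : (0 : ℤ) < e := by exact_mod_cast he0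
  have hab : P₀.ord c₀ * R.ord c₁ = 1 := by
    have : (r : ℤ) * (P₀.ord c₀ * R.ord c₁) = r * 1 := by
      rw [← mul_assoc, ← k0, k1, mul_one]
    exact mul_left_cancel₀ hr'.ne' this
  have ha : P₀.ord c₀ = 1 := by
    have hpos : 0 < P₀.ord c₀ := by
      by_contra hcon
      have : (r : ℤ) * P₀.ord c₀ ≤ 0 := mul_nonpos_of_nonneg_of_nonpos hr'.le (by omega)
      omega
    rcases Int.eq_one_or_neg_one_of_mul_eq_one hab with h1 | h1
    · exact h1
    · omega
  have her : (e : ℤ) = r := by rw [k0, ha, mul_one]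
  refine ⟨place_ext_ord fun c => ?_, by exact_mod_cast her⟩
  have := key c
  rw [her] at this
  exact mul_left_cancel₀ hr'.ne' this

/-- the places of `F` over `P₀` (along `α`) are `P₁` (`e = 1`) and `P₂` (`e = q`). -/
theorem fiber_cases (hdeg : finrankAlong K α = q + 1) (P₀ : Place K F₀) (P₁ P₂ : Place K F)
    (h1 : ∀ c, P₁.ord (α c) = P₀.ord c) (h2 : ∀ c, P₂.ord (α c) = q * P₀.ord c) (hq : 2 ≤ q)
    (P : Place K F) (hP : P.restrictAlong α (FF.isIntegral_toRingHom α) = P₀) :
    P = P₁ ∨ P = P₂ := by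
  classical
  by_contra hcon
  push Not at hcon
  obtain ⟨hn1, hn2⟩ := hcon
  obtain ⟨hr1, he1⟩ := places_restrict_eq (α := α) P₀ P₁ (r := 1) one_pos
    (fun c => by rw [h1 c]; simp)
  obtain ⟨hr2, he2⟩ := places_restrict_eq (α := α) P₀ P₂ (r := q) (by omega) h2
  have h12 : P₁ ≠ P₂ := by
    rintro rfl
    omega
  have hsum := FF.sum_ramificationIndexAlong α (FF.isIntegral_toRingHom α) P₀
  have hsub : ({P, P₁, P₂} : Finset (Place K F)) ⊆
      Place.fiberAlong α (FF.isIntegral_toRingHom α) P₀ := by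
    intro Q hQ
    rw [Place.mem_fiberAlong]
    simp only [Finset.mem_insert, Finset.mem_singleton] at hQ
    rcases hQ with rfl | rfl | rfl
    · exact hP
    · exact hr1
    · exact hr2
  have hle := Finset.sum_le_sum_of_subset_of_nonneg (f := fun w : Place K F =>
    (w.ramificationIndexAlong α : ℤ)) hsub (fun _ _ _ => Int.natCast_nonneg _)
  rw [hsum, hdeg, Finset.sum_insert (by simp [hn1, hn2]), Finset.sum_pair h12, he1, he2] at hle
  have := places_ramificationIndexAlong_pos (α := α) P
  push_cast at hle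
  omega

end Fermat.Agent.TOR.T1
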