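import Fermat.Agent.TOR.T1.Basic

/-!
# TOR / T1 : package T1-SEMI : semilinear automorphisms compatible with the reductions
-/

set_option autoImplicit false

open Polynomial ModularCurve AlgebraicCurve

noncomputable section

namespace Fermat.Agent.TOR.T1

open Fermat.Agent.GAL.KL Fermat.Agent.GAL.KLC Fermat.Agent.TOR.KL2
open Fermat.Agent.GAL

variable {K F₀ F k Γ' Γ₀ : Type*} [Field K] [Field F₀] [Field F] [Algebra K F₀]
  [Algebra K F] [Field k] [LinearOrderedCommGroupWithZero Γ'] [LinearOrderedCommGroupWithZero Γ₀]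
  {v₀ : Valuation F₀ Γ'} {ρ₀ : v₀.integer →+* LaurentSeries k} {v : Valuation F Γ₀}
  {ρ : v.integer →+* LaurentSeries k} {α β : F₀ →ₐ[K] F} {w : F ≃ₐ[K] F} {q : ℕ} [NeZero q]
  {x x' : F₀} {ξ ξ' : LaurentSeries k} {m : ℕ}

variable {sK : K ≃+* K} {s₀ : F₀ ≃+* F₀} {s : F ≃+* F} {Fr : LaurentSeries k →+* LaurentSeries k}

theorem Semi.le_one (hs : Semi ρ₀ ρ α β sK s₀ s Fr) {z : F} (h : v z ≤ 1) : v (s z) ≤ 1 := by
  obtain ⟨φ, hφ⟩ := exists_rd (ρ := ρ) h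
  exact (hs.ρs z φ hφ).le_one

theorem Semi.lt_one (hρ : IsRed K v ρ) (hs : Semi ρ₀ ρ α β sK s₀ s Fr) {z : F} (h : v z < 1) :
    v (s z) < 1 := by
  have h1 := hs.ρs z 0 ((rd_zero_iff hρ).2 h)
  rw [map_zero] at h1
  exact (rd_zero_iff hρ).1 h1

theorem Semi.symm_le_one (hρ : IsRed K v ρ) (hs : Semi ρ₀ ρ α β sK s₀ s Fr) {z : F} (h : v z ≤ 1) :
    v (s.symm z) ≤ 1 := by
  by_contra hcon
  rw [not_le] at hcon
  have h0 : v (s.symm z) ≠ 0 := (zero_lt_one.trans hcon).ne'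
  have h1 : v (s.symm z)⁻¹ < 1 := by
    rw [map_inv₀]
    exact (inv_lt_one₀ (zero_lt_iff.2 h0)).2 hcon
  have h2 := hs.lt_one hρ h1
  rw [map_inv₀, s.apply_symm_apply, map_inv₀] at h2
  have hz0 : v z ≠ 0 := by
    intro hz
    rw [Valuation.zero_iff] at hz
    rw [hz, map_zero, map_zero] at h0
    exact h0 rfl
  have h3 : 1 < v z := (inv_lt_one₀ (zero_lt_iff.2 hz0)).1 h2
  exact absurd h (not_le.2 h3)

theorem Semi.symm_lt_one (hρ : IsRed K v ρ) (hs : Semi ρ₀ ρ α β sK s₀ s Fr) {z : F} (h : v z < 1) :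
    v (s.symm z) < 1 := by
  obtain ⟨φ, hφ⟩ := exists_rd (ρ := ρ) (hs.symm_le_one hρ h.le)
  have h1 := hs.ρs _ φ hφ
  rw [s.apply_symm_apply] at h1
  have h2 : Fr φ = 0 := h1.unique ((rd_zero_iff hρ).2 h)
  have h3 : φ = 0 := (map_eq_zero Fr).1 h2
  rw [h3] at hφ
  exact (rd_zero_iff hρ).1 hφ

theorem Semi.s_tt (hs : Semi ρ₀ ρ α β sK s₀ s Fr) (hx : s₀ x = x) : s (tt α β x) = tt α β x := by
  rw [tt, map_mul, hs.sα, hs.sβ, hx]

/-- variant of `KL2.rad_of_frobLike` (only `<1` is preserved by `ψ⁻¹`). -/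
theorem rad_of_frobLike' {v₁ v₂ : Valuation F Γ₀} {u : F} (ψ : F ≃+* F) {Q : ℕ} (hQ : 2 ≤ Q)
    (hψ : FrobLike K v₁ v₂ u (ψ : F →+* F) Q) (hint : ∀ x, IsInt K u x → IsInt K u (ψ.symm x))
    (h1 : ∀ x, v₁ x < 1 → v₁ (ψ.symm x) < 1) (h2 : ∀ x, v₂ x < 1 → v₂ (ψ.symm x) < 1) :
    Rad K v₁ v₂ u := by
  intro b m _ hb hb1 hb2 hc
  -- descent along `ψ`
  have hdesc : ∀ y, Cond K v₁ v₂ u (ψ y) → Cond K v₁ v₂ u y := by
    rintro y ⟨c, hc, hc1, hc2⟩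
    refine ⟨ψ.symm c, hint c hc, ?_, h2 c hc2⟩
    have h3 := h1 _ hc1
    rwa [map_sub, ψ.symm_apply_apply] at h3
  have hdesc' : ∀ (i : ℕ) (y : F), Cond K v₁ v₂ u ((⇑(ψ : F →+* F))^[i] y) → Cond K v₁ v₂ u y := by
    intro i
    induction i with
    | zero => intro y h; exact h
    | succ i ih =>
      intro y h
      rw [Function.iterate_succ_apply] at h
      exact hdesc y (ih _ h)
  apply hdesc' m
  have hm : m ≤ Q ^ m := (Nat.lt_pow_self (by omega)).le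
  have h3 : Cond K v₁ v₂ u (b ^ (Q ^ m)) := by
    have h4 : b ^ (Q ^ m) = b ^ m * b ^ (Q ^ m - m) := by
      rw [← pow_add, Nat.add_sub_cancel' hm]
    rw [h4]
    exact hc.mul_right (hb.pow _) (by rw [map_pow]; exact pow_le_one' hb1 _)
      (by rw [map_pow]; exact pow_le_one' hb2 _)
  have h5 := (hψ.iterate m b hb hb1 hb2).add h3
  rwa [sub_add_cancel] at h5

end Fermat.Agent.TOR.T1
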